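import Fermat.Agent.WeightOne.ChebAux.Euler
import Fermat.Agent.Density.Divergence
import Mathlib.NumberTheory.DirichletCharacter.Orthogonality

/-!
# Primes with Frobenius in the class of an element or of its inverse

`exists_class_bound`: let `σ` be an automorphism of a Galois number field containing `ζ_q`, such
that the cyclotomic character is injective on `⟨σ⟩` and the fixed field of `σ` is totally complex.
Then the sum over primes, weighted by the conjugators of Frobenius to `σ` and to `σ⁻¹`, is at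
least `log (1/(s-1)) + O(1)` at `1⁺`. Proof: orthogonality of the characters modulo `q` on the
fixed field, with the bounds of `ChebAux.Euler` for each real part.
-/

set_option autoImplicit false
set_option linter.unusedSectionVars false
set_option linter.style.haveILetI false

noncomputable section

open NumberField IsDedekindDomain Filter
open FLTAgent.DS.Cheb FLTAgent.Density
open scoped nonZeroDivisors Topology Pointwise

namespace FLTAgent.WeightOne.ChebAux

/-- `f ≤ g` up to a bounded amount near `1⁺`. -/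
def LeO (f g : ℝ → ℝ) : Prop := ∃ C : ℝ, ∀ᶠ s in 𝓝[>] (1 : ℝ), f s ≤ g s + C

theorem LeO.trans {f g h : ℝ → ℝ} (h1 : LeO f g) (h2 : LeO g h) : LeO f h := by
  obtain ⟨C, hC⟩ := h1
  obtain ⟨D, hD⟩ := h2
  exact ⟨C + D, by filter_upwards [hC, hD] with s a b; linarith⟩

theorem leO_of_eventually_le {f g : ℝ → ℝ} (h : ∀ᶠ s in 𝓝[>] (1 : ℝ), f s ≤ g s) : LeO f g :=
  ⟨0, h.mono fun s hs => by linarith⟩

theorem LeO.add {f g f' g' : ℝ → ℝ} (h : LeO f g) (h' : LeO f' g') :
    LeO (fun s => f s + f' s) fun s => g s + g' s := by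
  obtain ⟨C, hC⟩ := h
  obtain ⟨D, hD⟩ := h'
  exact ⟨C + D, by filter_upwards [hC, hD] with s a b; linarith⟩

theorem leO_sum {ι : Type*} (F : Finset ι) {f g : ι → ℝ → ℝ} (h : ∀ i ∈ F, LeO (f i) (g i)) :
    LeO (fun s => ∑ i ∈ F, f i s) fun s => ∑ i ∈ F, g i s := by
  classical
  induction F using Finset.induction_on with
  | empty => exact ⟨0, Eventually.of_forall fun s => by simp⟩
  | insert a F ha ih =>
    simp only [Finset.sum_insert ha]
    exact (h a (Finset.mem_insert_self a F)).add (ih fun i hi => h i (Finset.mem_insert_of_mem hi))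

variable {M : Type} [Field M] [NumberField M] {q : ℕ} [Fact q.Prime] {ζ : M}

/-- The cyclotomic character of a Frobenius element. -/
theorem autToPow_frobenius (hζ : IsPrimitiveRoot ζ q) {p : ℕ} (hp : p.Prime) (hpq : p ≠ q)
    {Q : Ideal (𝓞 M)} [Q.IsMaximal] (hpQ : (p : 𝓞 M) ∈ Q) {g : M ≃ₐ[ℚ] M}
    (hg : IsFrobMod p g Q) : (hζ.autToPow ℚ g : ZMod q) = (p : ZMod q) := by
  have hq : q.Prime := Fact.out
  letI := Ideal.Quotient.field Q
  obtain ⟨z, hz⟩ : ∃ z : 𝓞 M, (z : M) = ζ := ⟨⟨ζ, hζ.isIntegral hq.pos⟩, rfl⟩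
  have hz1 : IsPrimitiveRoot z q := by
    refine IsPrimitiveRoot.of_map_of_injective (f := algebraMap (𝓞 M) M) ?_
      RingOfIntegers.coe_injective
    change IsPrimitiveRoot (z : M) q
    rw [hz]
    exact hζ
  set a := (hζ.autToPow ℚ g : ZMod q).val with ha
  have hga : g • z = z ^ a := RingOfIntegers.ext (by
    show g (z : M) = algebraMap (𝓞 M) M (z ^ a)
    rw [map_pow]
    change g (z : M) = (z : M) ^ a
    rw [hz, ha, hζ.autToPow_spec ℚ])
  set w := Ideal.Quotient.mk Q z with hw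
  have hwq : w ^ q = 1 := by rw [hw, ← map_pow, hz1.pow_eq_one, map_one]
  have hw1 : w ≠ 1 := by
    intro h1
    have h0 := congrArg (Ideal.Quotient.mk Q) (hz1.geom_sum_eq_zero hq.one_lt)
    rw [map_sum, map_zero] at h0
    simp only [map_pow, ← hw, h1, one_pow, Finset.sum_const, Finset.card_range,
      nsmul_one] at h0
    rw [← map_natCast (Ideal.Quotient.mk Q), Ideal.Quotient.eq_zero_iff_mem] at h0
    have h2 := Int.gcd_eq_gcd_ab (q : ℤ) (p : ℤ)
    rw [Int.gcd_natCast_natCast, (Nat.coprime_primes hq hp).2 (Ne.symm hpq)] at h2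
    have h3 : (1 : 𝓞 M) ∈ Q := by
      have h4 := congrArg (fun z : ℤ => (z : 𝓞 M)) h2
      simp only [Nat.cast_one, Int.cast_one, Int.cast_add, Int.cast_mul, Int.cast_natCast] at h4
      rw [h4]
      exact add_mem (Ideal.mul_mem_right _ _ h0) (Ideal.mul_mem_right _ _ hpQ)
    exact Ideal.IsMaximal.ne_top ‹_› ((Ideal.eq_top_iff_one Q).2 h3)
  have heq : w ^ a = w ^ p := by
    rw [hw, ← map_pow, ← map_pow, Ideal.Quotient.eq, ← hga]
    exact hg z
  have hord : orderOf w = q := orderOf_eq_prime hwq hw1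
  have hfin : IsOfFinOrder w := isOfFinOrder_iff_pow_eq_one.mpr ⟨q, hq.pos, hwq⟩
  have := hfin.pow_eq_pow_iff_modEq.mp heq
  rw [hord, ← ZMod.natCast_eq_natCast_iff, ha, ZMod.natCast_zmod_val] at this
  exact this

variable (K : Type*) [Field K] [NumberField K]

/-- A weighted sum over the primes of degree one. -/
def wSum (a : Nat.Primes → ℝ) (s : ℝ) : ℝ :=
  ∑' p : Nat.Primes, a p * ((degOneCount K p : ℝ) * (p : ℝ) ^ (-s))

theorem exists_summable_wSum :
    ∀ᶠ s : ℝ in 𝓝[>] 1, ∀ a : Nat.Primes → ℝ, (∃ C, ∀ p, |a p| ≤ C) →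
      Summable fun p : Nat.Primes => a p * ((degOneCount K p : ℝ) * (p : ℝ) ^ (-s)) := by
  obtain ⟨C, hC⟩ := eventually_abs_degOne_sub_log_le K
  filter_upwards [hC] with s hs a ⟨B, hB⟩
  refine Summable.of_norm_bounded (hs.1.mul_left B) fun p => ?_
  rw [norm_mul, Real.norm_eq_abs (a p), Real.norm_of_nonneg (by positivity)]
  exact mul_le_mul_of_nonneg_right (hB p) (by positivity)

theorem leO_wSum {a b : Nat.Primes → ℝ} (ha : ∃ C, ∀ p, |a p| ≤ C) (hb : ∃ C, ∀ p, |b p| ≤ C)
    (T : Finset Nat.Primes) (h : ∀ p ∉ T, degOneCount K p ≠ 0 → a p ≤ b p) :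
    LeO (wSum K a) (wSum K b) := by
  classical
  refine ⟨∑ p ∈ T, |a p - b p| * (degOneCount K p : ℝ), ?_⟩
  filter_upwards [exists_summable_wSum K, self_mem_nhdsWithin] with s hs hs1
  have hs1' : (1 : ℝ) < s := hs1
  set t : Nat.Primes → ℝ := fun p => |a p - b p| * (degOneCount K p : ℝ)
  have hT : Summable fun p : Nat.Primes => (if p ∈ T then t p else 0) :=
    summable_of_ne_finset_zero (s := T) fun p hp => if_neg hp
  rw [wSum, wSum, show ∑ p ∈ T, t p = ∑' p : Nat.Primes, (if p ∈ T then t p else 0) by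
    rw [tsum_eq_sum (s := T) fun p hp => if_neg hp]
    exact Finset.sum_congr rfl fun p hp => (if_pos hp).symm,
    ← (hs b hb).tsum_add hT]
  refine (hs a ha).tsum_le_tsum (fun p => ?_) ((hs b hb).add hT)
  have hp1 : (p : ℝ) ^ (-s) ≤ 1 :=
    Real.rpow_le_one_of_one_le_of_nonpos (by exact_mod_cast p.2.one_lt.le) (by linarith)
  have hw : 0 ≤ (degOneCount K p : ℝ) * (p : ℝ) ^ (-s) := by positivity
  by_cases hp : p ∈ T
  · rw [if_pos hp, ← sub_le_iff_le_add', ← sub_mul]
    refine (mul_le_mul_of_nonneg_right (le_abs_self _) hw).trans ?_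
    exact mul_le_mul_of_nonneg_left (mul_le_of_le_one_right (Nat.cast_nonneg _) hp1) (abs_nonneg _)
  · rw [if_neg hp, add_zero]
    rcases eq_or_ne (degOneCount K p) 0 with h0 | h0
    · simp [h0]
    · exact mul_le_mul_of_nonneg_right (h p hp h0) hw

theorem sum_mul_wSum {ι : Type*} (F : Finset ι) (c : ι → ℝ) (a : ι → Nat.Primes → ℝ)
    (ha : ∀ i, ∃ C, ∀ p, |a i p| ≤ C) :
    ∀ᶠ s : ℝ in 𝓝[>] 1, ∑ i ∈ F, c i * wSum K (a i) s =
      wSum K (fun p => ∑ i ∈ F, c i * a i p) s := by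
  filter_upwards [exists_summable_wSum K] with s hs
  simp only [wSum, ← tsum_mul_left, Finset.sum_mul]
  rw [← Summable.tsum_finsetSum fun i _ => (hs _ (ha i)).mul_left (c i)]
  exact tsum_congr fun p => Finset.sum_congr rfl fun i _ => (mul_assoc _ _ _).symm

theorem log_leO_wSum_one : LeO (fun s => Real.log (1 / (s - 1))) (wSum K fun _ => 1) := by
  obtain ⟨C, hC⟩ := eventually_abs_degOne_sub_log_le K
  refine ⟨C, ?_⟩
  filter_upwards [hC] with s hs
  simp only [wSum, one_mul]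
  linarith [(abs_le.mp hs.2).1]

theorem wSum_one_leO_log : LeO (wSum K fun _ => 1) (fun s => Real.log (1 / (s - 1))) := by
  obtain ⟨C, hC⟩ := eventually_abs_degOne_sub_log_le K
  refine ⟨C, ?_⟩
  filter_upwards [hC] with s hs
  simp only [wSum, one_mul]
  linarith [(abs_le.mp hs.2).2]

theorem abs_re_apply_le (χ : DirichletCharacter ℂ q) (x : ZMod q) : |(χ x).re| ≤ 1 :=
  (Complex.abs_re_le_norm _).trans (DirichletCharacter.norm_le_one χ x)

theorem re_mul_re (χ : DirichletCharacter ℂ q) (u : (ZMod q)ˣ) (x : ZMod q) :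
    (χ u).re * (χ x).re = ((χ ((u : ZMod q) * x)).re + (χ ((↑u⁻¹ : ZMod q) * x)).re) / 2 := by
  have hu : χ (↑u⁻¹ : ZMod q) = (starRingEnd ℂ) (χ (u : ZMod q)) := by
    rw [starRingEnd_apply, MulChar.star_apply']
    exact (by rw [MulChar.inv_apply, Ring.inverse_unit] :
      χ (↑u⁻¹ : ZMod q) = χ⁻¹ (u : ZMod q))
  rw [map_mul, map_mul, hu]
  simp [Complex.mul_re]

theorem sum_re_mul_re (u : (ZMod q)ˣ) (x : ZMod q) :
    ∑ χ : DirichletCharacter ℂ q, (χ u).re * (χ x).re =
      (q.totient : ℝ) / 2 *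
        ((if x = u then 1 else 0) + (if x = (↑u⁻¹ : ZMod q) then 1 else 0)) := by
  classical
  simp only [re_mul_re, ← Finset.sum_div, Finset.sum_add_distrib, ← Complex.re_sum,
    DirichletCharacter.sum_characters_eq]
  have h1 : ((u : ZMod q) * x = 1) ↔ x = (↑u⁻¹ : ZMod q) :=
    ⟨fun h => by rw [← Units.inv_mul_cancel_left u x, h, mul_one], fun h => by rw [h, Units.mul_inv]⟩
  have h2 : ((↑u⁻¹ : ZMod q) * x = 1) ↔ x = u :=
    ⟨fun h => by rw [← Units.mul_inv_cancel_left u x, h, mul_one], fun h => by rw [h, Units.inv_mul]⟩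
  simp only [h1, h2]
  split_ifs <;> simp <;> ring

variable [IsGalois ℚ M]

/-- The lower bound for one element. -/
theorem exists_class_bound (hζ : IsPrimitiveRoot ζ q) (σ : M ≃ₐ[ℚ] M)
    (hinj : ∀ h ∈ Subgroup.zpowers σ, hζ.autToPow ℚ h = 1 → h = 1)
    [IsTotallyComplex (IntermediateField.fixedField (Subgroup.zpowers σ))] (S : Finset ℕ)
    (hqS : q ∈ S) (hbadS : ∀ p : Nat.Primes, (p : ℕ) ∣ badNat M → (p : ℕ) ∈ S)
    (F : Nat.Primes → (M ≃ₐ[ℚ] M))
    (hF : ∀ p : Nat.Primes, (p : ℕ) ∉ S → ∃ Q : Ideal (𝓞 M), Q.IsMaximal ∧ ((p : ℕ) : 𝓞 M) ∈ Q ∧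
      IsFrobMod (p : ℕ) (F p) Q) :
    LeO (fun s => Real.log (1 / (s - 1))) (fun s => ∑' p : Nat.Primes,
      (if (p : ℕ) ∈ S then 0 else
        ((Nat.card {x : M ≃ₐ[ℚ] M // x * F p * x⁻¹ = σ} : ℝ) +
          Nat.card {x : M ≃ₐ[ℚ] M // x * F p * x⁻¹ = σ⁻¹}) / 2) * (p : ℝ) ^ (-s)) := by
  classical
  have hq : q.Prime := Fact.out
  set κ := hζ.autToPow ℚ with hκ
  set H := Subgroup.zpowers σ with hH
  set K := IntermediateField.fixedField H
  set u := κ σ with hu
  set m := Nat.card H with hm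
  have hmσ : m = orderOf σ := Nat.card_zpowers σ
  have hm0 : 0 < m := Nat.card_pos
  have hum : u ^ m = 1 := by rw [hu, ← map_pow, hmσ, pow_orderOf_eq_one, map_one]
  let T : Finset Nat.Primes := S.subtype Nat.Prime
  have hTS : ∀ p : Nat.Primes, p ∉ T → (p : ℕ) ∉ S := fun p hp h => hp (Finset.mem_subtype.mpr h)
  have hcount : ∀ p : Nat.Primes, (p : ℕ) ∉ S →
      m * degOneCount K p = Nat.card {x : M ≃ₐ[ℚ] M // x * F p * x⁻¹ ∈ H} ∧
      ∀ x : M ≃ₐ[ℚ] M, (κ (x * F p * x⁻¹) : ZMod q) = ((p : ℕ) : ZMod q) := by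
    intro p hp
    obtain ⟨Q, hQ, hpQ, hg⟩ := hF p hp
    haveI := hQ
    refine ⟨card_mul_degOneCount H p.2 hpQ (fun h => hp (hbadS p h)) hg, fun x => ?_⟩
    rw [map_mul, map_mul, map_inv, mul_inv_cancel_comm]
    exact autToPow_frobenius hζ p.2 (fun h => hp (h ▸ hqS)) hpQ hg
  have hdeg : ∀ p : Nat.Primes, (p : ℕ) ∉ S → degOneCount K p ≠ 0 →
      ∃ j : ℕ, ((p : ℕ) : ZMod q) = (u : ZMod q) ^ j := by
    intro p hp hd
    obtain ⟨h1, h2⟩ := hcount p hp
    have : Nonempty {x : M ≃ₐ[ℚ] M // x * F p * x⁻¹ ∈ H} := by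
      by_contra h0
      rw [not_nonempty_iff] at h0
      rw [Nat.card_of_isEmpty] at h1
      exact mul_ne_zero hm0.ne' hd h1
    obtain ⟨x, hx⟩ := this
    obtain ⟨j, hj : σ ^ j = _⟩ := (isOfFinOrder_of_finite σ).mem_powers_iff_mem_zpowers.mpr hx
    exact ⟨j, by rw [← h2 x, ← hj, map_pow, Units.val_pow_eq_pow_val]⟩
  -- a witness for nontrivial characters
  have hwit : ∀ χ : DirichletCharacter ℂ q, χ u ≠ 1 → ∃ P : (Ideal (𝓞 K))⁰,
      (P : Ideal (𝓞 K)) ⊔ Ideal.span {(q : 𝓞 K)} = ⊤ ∧ chiN K χ P ≠ 1 := by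
    intro χ hχ
    obtain ⟨p, hp, hpS, -, hconj⟩ := exists_prime_frobMod_conj_eq_pow M σ S
    obtain ⟨Q, hQ, hpQ, hg⟩ := hF ⟨p, hp⟩ hpS
    obtain ⟨x, k, hk, hx⟩ := hconj Q hQ hpQ _ hg
    obtain ⟨h1, h2⟩ := hcount ⟨p, hp⟩ hpS
    have hd : degOneCount K p ≠ 0 := by
      intro h0
      rw [show degOneCount K ((⟨p, hp⟩ : Nat.Primes) : ℕ) = 0 from h0, mul_zero] at h1
      haveI : Nonempty {x : M ≃ₐ[ℚ] M // x * F ⟨p, hp⟩ * x⁻¹ ∈ H} :=
        ⟨⟨x, hx ▸ pow_mem (Subgroup.mem_zpowers σ) k⟩⟩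
      exact Nat.card_pos.ne h1
    obtain ⟨⟨P, hP⟩⟩ := (Nat.card_ne_zero.mp hd).1
    refine ⟨⟨P.asIdeal, mem_nonZeroDivisors_of_ne_zero P.ne_bot⟩, ?_, ?_⟩
    · refine P.isMaximal.1.2 _ (lt_of_le_of_ne le_sup_left fun heq => ?_)
      have hqP : (q : 𝓞 K) ∈ P.asIdeal := by
        rw [heq]; exact Ideal.mem_sup_right (Ideal.mem_span_singleton_self _)
      have hpP : (p : 𝓞 K) ∈ P.asIdeal := by
        have := Ideal.absNorm_mem P.asIdeal
        rwa [hP] at this
      obtain ⟨a, b, hab⟩ : IsCoprime (q : ℤ) (p : ℤ) :=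
        Nat.isCoprime_iff_coprime.mpr ((Nat.coprime_primes hq hp).2 fun h => hpS (h ▸ hqS))
      refine P.isPrime.ne_top ((Ideal.eq_top_iff_one _).2 ?_)
      have := congrArg (fun z : ℤ => (z : 𝓞 K)) hab
      simp only [Int.cast_add, Int.cast_mul, Int.cast_natCast, Int.cast_one] at this
      rw [← this]
      exact add_mem (Ideal.mul_mem_left _ _ hqP) (Ideal.mul_mem_left _ _ hpP)
    · show χ ((Ideal.absNorm P.asIdeal : ℕ) : ZMod q) ≠ 1
      rw [hP, ← h2 x, hx, map_pow, ← hu, Units.val_pow_eq_pow_val, map_pow]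
      intro hk1
      refine hχ ?_
      have hm1 : χ (u : ZMod q) ^ m = 1 := by
        rw [← map_pow, ← Units.val_pow_eq_pow_val, hum, Units.val_one, map_one]
      have hg1 := pow_gcd_eq_one.mpr ⟨hk1, hm1⟩
      rwa [hmσ, show k.gcd (orderOf σ) = 1 from hk, pow_one] at hg1
  have hbd : ∀ χ : DirichletCharacter ℂ q, ∃ C, ∀ p : Nat.Primes,
      |(χ ((p : ℕ) : ZMod q)).re| ≤ C := fun χ => ⟨1, fun p => abs_re_apply_le χ _⟩
  have hone : ∃ C, ∀ _p : Nat.Primes, |(1 : ℝ)| ≤ C := ⟨1, fun _ => abs_one.le⟩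
  have hchi : ∀ χ : DirichletCharacter ℂ q,
      wSum K (fun p => (χ ((p : ℕ) : ZMod q)).re) = reSum K χ := fun χ => rfl
  have hup : ∀ χ : DirichletCharacter ℂ q, χ u ≠ 1 → LeO (reSum K χ) fun _ => 0 := by
    intro χ hχ
    obtain ⟨P, hPq, hP⟩ := hwit χ hχ
    obtain ⟨C, hC⟩ := exists_reSum_le K χ P hPq hP
    exact ⟨C, hC.mono fun s hs => by linarith⟩
  have hup1 : ∀ χ : DirichletCharacter ℂ q, LeO (reSum K χ) (wSum K fun _ => 1) := fun χ =>
    leO_wSum K (hbd χ) hone ∅ fun p _ _ => (le_abs_self _).trans (abs_re_apply_le χ _)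
  have htriv : ∀ χ : DirichletCharacter ℂ q, χ u = 1 → LeO (wSum K fun _ => 1) (reSum K χ) := by
    intro χ hχ
    refine leO_wSum K hone (hbd χ) T fun p hp hd => ?_
    obtain ⟨j, hj⟩ := hdeg p (hTS p hp) hd
    rw [hj, map_pow, hχ, one_pow, Complex.one_re]
  -- nonvanishing for characters which are not real on `⟨u⟩`
  have hlow : ∀ χ : DirichletCharacter ℂ q, χ u ≠ 1 → χ u ≠ -1 →
      LeO (fun _ => 0) (reSum K χ) := by
    intro χ hχ1 hχ2
    set k := orderOf (χ u) with hk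
    have hfin : IsOfFinOrder (χ (u : ZMod q)) := isOfFinOrder_iff_pow_eq_one.mpr
      ⟨m, hm0, by rw [← map_pow, ← Units.val_pow_eq_pow_val, hum, Units.val_one, map_one]⟩
    have hk0 : 0 < k := hfin.orderOf_pos
    have hk3 : 3 ≤ k := by
      by_contra hlt
      have h2 := pow_orderOf_eq_one (χ (u : ZMod q))
      rw [← hk] at h2
      interval_cases hk12 : k
      · rw [pow_one] at h2
        exact hχ1 h2
      · exact (mul_self_eq_one_iff.mp (by rw [← pow_two]; exact h2)).elim hχ1 hχ2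
    have hpow : ∀ j : ℕ, j < k → j ≠ 0 → χ u ^ j ≠ 1 := fun j hj hj0 h =>
      hj0 (Nat.eq_zero_of_dvd_of_lt (orderOf_dvd_of_pow_eq_one h) hj)
    -- positivity
    set a : ℕ → Nat.Primes → ℝ := fun j p => ((χ ((p : ℕ) : ZMod q)) ^ j).re
    have habd : ∀ j, ∃ C, ∀ p, |a j p| ≤ C := fun j => ⟨1, fun p =>
      (Complex.abs_re_le_norm _).trans (by
        rw [norm_pow]; exact pow_le_one₀ (norm_nonneg _) (DirichletCharacter.norm_le_one χ _))⟩
    have hsum0 : LeO (fun _ => 0) (fun s => ∑ j ∈ Finset.range k, wSum K (a j) s) := by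
      have h : LeO (wSum K fun _ => 0) (wSum K fun p => ∑ j ∈ Finset.range k, a j p) := by
        refine leO_wSum K ⟨0, fun _ => abs_zero.le⟩ ⟨(k : ℝ), fun p =>
          (Finset.abs_sum_le_sum_abs _ _).trans ?_⟩ T fun p hp hd => ?_
        · refine (Finset.sum_le_sum (g := fun _ => (1 : ℝ)) fun j _ =>
            (Complex.abs_re_le_norm _).trans ?_).trans (by simp)
          rw [norm_pow]
          exact pow_le_one₀ (norm_nonneg _) (DirichletCharacter.norm_le_one χ _)
        · obtain ⟨i, hi⟩ := hdeg p (hTS p hp) hd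
          simp only [a, ← Complex.re_sum]
          by_cases h1 : χ ((p : ℕ) : ZMod q) = 1
          · simp [h1]
          · have hk1 : χ ((p : ℕ) : ZMod q) ^ k = 1 := by
              rw [hi, map_pow, pow_right_comm, hk, pow_orderOf_eq_one, one_pow]
            rw [geom_sum_eq h1, hk1, sub_self, zero_div, Complex.zero_re]
      refine LeO.trans ?_ (h.trans (leO_of_eventually_le ?_))
      · exact leO_of_eventually_le (Eventually.of_forall fun s => by simp [wSum])
      · filter_upwards [sum_mul_wSum K (Finset.range k) (fun _ => 1) a habd] with s hs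
        simp only [one_mul] at hs
        rw [hs]
    have hj : ∀ j ∈ Finset.range k, LeO (wSum K (a j))
        (fun s => (if j = 0 then Real.log (1 / (s - 1)) else 0) +
          ((if j = 1 then reSum K χ s else 0) + if j = k - 1 then reSum K χ s else 0)) := by
      intro j hj
      rw [Finset.mem_range] at hj
      by_cases hj0 : j = 0
      · subst hj0
        simp only [if_true, show ¬ (0 = 1) from zero_ne_one, show ¬ 0 = k - 1 by omega, if_false,
          add_zero]
        refine LeO.trans (leO_of_eventually_le (Eventually.of_forall fun s => ?_))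
          (wSum_one_leO_log K)
        simp [wSum, a]
      by_cases hj1 : j = 1
      · subst hj1
        simp only [if_neg hj0, if_true, show ¬ 1 = k - 1 by omega, if_false, add_zero, zero_add]
        exact leO_of_eventually_le (Eventually.of_forall fun s => by simp [wSum, reSum, a])
      by_cases hjk : j = k - 1
      · subst hjk
        simp only [if_neg hj0, if_neg hj1, if_true, zero_add]
        refine (leO_wSum K (habd _) (hbd χ) T fun p hp hd => ?_)
        obtain ⟨i, hi⟩ := hdeg p (hTS p hp) hd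
        set z := χ ((p : ℕ) : ZMod q)
        have hzk : z ^ k = 1 := by
          show χ ((p : ℕ) : ZMod q) ^ k = 1
          rw [hi, map_pow, pow_right_comm, hk, pow_orderOf_eq_one, one_pow]
        have hz : z ^ (k - 1) = (starRingEnd ℂ) z := by
          rw [← Complex.inv_eq_conj (Complex.norm_eq_one_of_pow_eq_one hzk hk0.ne')]
          refine eq_inv_of_mul_eq_one_left ?_
          rw [← pow_succ, Nat.sub_add_cancel hk0, hzk]
        show (z ^ (k - 1)).re ≤ z.re
        rw [hz, Complex.conj_re]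
      · simp only [if_neg hj0, if_neg hj1, if_neg hjk, add_zero]
        have hne : (χ ^ j) (u : ZMod q) ≠ 1 := by
          rw [MulChar.pow_apply_coe]; exact hpow j hj hj0
        refine LeO.trans (leO_of_eventually_le (Eventually.of_forall fun s => le_of_eq ?_))
          (hup _ hne)
        refine tsum_congr fun p => ?_
        simp only [a]
        rw [MulChar.pow_apply' χ hj0]
    obtain ⟨C, hC⟩ := hsum0.trans (leO_sum _ hj)
    obtain ⟨P, hPq, hP⟩ := hwit χ hχ1
    have hhalf : ∀ᶠ s : ℝ in 𝓝[>] 1,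
        -(1 / 2) * Real.log (1 / (s - 1)) - C / 2 ≤ reSum K χ s := by
      filter_upwards [hC] with s hs
      rw [Finset.sum_add_distrib, Finset.sum_add_distrib, Finset.sum_ite_eq', Finset.sum_ite_eq',
        Finset.sum_ite_eq', if_pos (Finset.mem_range.mpr hk0),
        if_pos (Finset.mem_range.mpr (by omega)), if_pos (Finset.mem_range.mpr (by omega))] at hs
      linarith
    obtain ⟨C', hC'⟩ := exists_le_reSum K χ P hPq hP hhalf
    exact ⟨C', hC'.mono fun s hs => by linarith⟩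
  -- the characters trivial at `u`
  set N1 := (Finset.univ.filter fun χ : DirichletCharacter ℂ q => χ u = 1).card with hN1
  have hcard : (m : ℝ) * N1 = (q.totient : ℝ) := by
    have h1 : ∀ χ : DirichletCharacter ℂ q,
        ∑ j ∈ Finset.range m, χ ((u : ZMod q) ^ j) = if χ u = 1 then (m : ℂ) else 0 := by
      intro χ
      simp only [map_pow]
      split_ifs with h
      · simp [h]
      · rw [geom_sum_eq h, ← map_pow, ← Units.val_pow_eq_pow_val, hum, Units.val_one, map_one,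
          sub_self, zero_div]
    have h2 : ∀ j ∈ Finset.range m, ((u : ZMod q) ^ j = 1 ↔ j = 0) := by
      intro j hj
      refine ⟨fun h => ?_, fun h => by rw [h, pow_zero]⟩
      rw [← Units.val_pow_eq_pow_val, Units.val_eq_one, hu, ← map_pow] at h
      exact Nat.eq_zero_of_dvd_of_lt (orderOf_dvd_of_pow_eq_one
        (hinj _ (pow_mem (Subgroup.mem_zpowers σ) j) h)) (hmσ ▸ Finset.mem_range.mp hj)
    have h3 : ∑ χ : DirichletCharacter ℂ q, ∑ j ∈ Finset.range m, χ ((u : ZMod q) ^ j) =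
        (q.totient : ℂ) := by
      rw [Finset.sum_comm, Finset.sum_congr rfl fun j _ => DirichletCharacter.sum_characters_eq ℂ _,
        Finset.sum_congr rfl fun j hj => if_congr (h2 j hj) rfl rfl, Finset.sum_ite_eq',
        if_pos (Finset.mem_range.mpr hm0)]
    simp only [h1, Finset.sum_ite, Finset.sum_const, nsmul_eq_mul, smul_zero, add_zero,
      ← hN1] at h3
    have h4 : ((N1 * m : ℕ) : ℂ) = ((q.totient : ℕ) : ℂ) := by push_cast; exact h3
    rw [mul_comm]
    exact_mod_cast h4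
  have hmain : LeO (fun s => (N1 : ℝ) * Real.log (1 / (s - 1)))
      (fun s => ∑ χ : DirichletCharacter ℂ q, (χ u).re * reSum K χ s) := by
    have h : LeO (fun s => ∑ χ : DirichletCharacter ℂ q,
        if χ u = 1 then Real.log (1 / (s - 1)) else 0)
        (fun s => ∑ χ : DirichletCharacter ℂ q, (χ u).re * reSum K χ s) := by
      refine leO_sum _ fun χ _ => ?_
      by_cases h1 : χ u = 1
      · simp only [h1, Complex.one_re, one_mul]
        exact (log_leO_wSum_one K).trans (htriv χ h1)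
      simp only [if_neg h1]
      by_cases h2 : χ u = -1
      · obtain ⟨C, hC⟩ := hup χ h1
        refine ⟨C, hC.mono fun s hs => ?_⟩
        rw [h2, Complex.neg_re, Complex.one_re]
        linarith
      · obtain ⟨C, hC⟩ := hup χ h1
        obtain ⟨C', hC'⟩ := hlow χ h1 h2
        refine ⟨|C| + |C'|, ?_⟩
        filter_upwards [hC, hC'] with s hs hs'
        have hb : |reSum K χ s| ≤ |C| + |C'| :=
          abs_le.mpr ⟨by linarith [le_abs_self C', abs_nonneg C],
            by linarith [le_abs_self C, abs_nonneg C']⟩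
        have h3 := (abs_mul ((χ u).re) (reSum K χ s)).le.trans
          ((mul_le_of_le_one_left (abs_nonneg _) (abs_re_apply_le χ _)).trans hb)
        linarith [(abs_le.mp h3).1]
    refine LeO.trans (leO_of_eventually_le (Eventually.of_forall fun s => le_of_eq ?_)) h
    rw [← Finset.sum_filter, Finset.sum_const, nsmul_eq_mul]
  set w : Nat.Primes → ℝ := fun p =>
    (q.totient : ℝ) / 2 * ((if ((p : ℕ) : ZMod q) = u then 1 else 0) +
      (if ((p : ℕ) : ZMod q) = (↑u⁻¹ : ZMod q) then 1 else 0)) with hw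
  have hwsum : LeO (fun s => (N1 : ℝ) * Real.log (1 / (s - 1))) (wSum K w) := by
    refine hmain.trans (leO_of_eventually_le ?_)
    filter_upwards [sum_mul_wSum K Finset.univ (fun χ : DirichletCharacter ℂ q => (χ u).re)
      (fun χ p => (χ ((p : ℕ) : ZMod q)).re) hbd] with s hs
    simp only [hchi] at hs
    rw [hs]
    simp only [sum_re_mul_re]
    exact le_rfl
  -- divide by `N1`
  set v : Nat.Primes → ℝ := fun p => (if (p : ℕ) ∈ S then 0 else
    ((Nat.card {x : M ≃ₐ[ℚ] M // x * F p * x⁻¹ = σ} : ℝ) +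
      Nat.card {x : M ≃ₐ[ℚ] M // x * F p * x⁻¹ = σ⁻¹}) / 2)
  have hN1pos : (0 : ℝ) < N1 := Nat.cast_pos.mpr (Finset.card_pos.mpr ⟨1, by
    simp [MulChar.one_apply_coe]⟩)
  have hvw : ∀ p : Nat.Primes, (p : ℕ) ∉ S →
      w p * (degOneCount K p : ℝ) ≤ (N1 : ℝ) * v p := by
    intro p hp
    obtain ⟨h1, h2⟩ := hcount p hp
    have hτ : ∀ τ ∈ H, ((p : ℕ) : ZMod q) = (κ τ : ZMod q) →
        m * degOneCount K p = Nat.card {x : M ≃ₐ[ℚ] M // x * F p * x⁻¹ = τ} := by
      intro τ hτ hpτ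
      rw [h1]
      refine Nat.card_congr (Equiv.subtypeEquivRight fun x => ⟨fun hx => ?_, fun hx => hx ▸ hτ⟩)
      refine inv_mul_eq_one.mp (hinj _ (mul_mem (inv_mem hx) hτ) ?_)
      rw [map_mul, map_inv, inv_mul_eq_one, ← Units.val_inj, h2 x, hpτ]
    have key : ∀ τ ∈ H, (m : ℝ) * ((if ((p : ℕ) : ZMod q) = (κ τ : ZMod q) then 1 else 0) *
        (degOneCount K p : ℝ)) ≤ Nat.card {x : M ≃ₐ[ℚ] M // x * F p * x⁻¹ = τ} := by
      intro τ hτ'
      split_ifs with hpτ
      · rw [one_mul, ← Nat.cast_mul, hτ τ hτ' hpτ]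
      · simp
    have k1 := key σ (Subgroup.mem_zpowers σ)
    have k2 := key σ⁻¹ (inv_mem (Subgroup.mem_zpowers σ))
    rw [← hu] at k1
    rw [map_inv, ← hu] at k2
    simp only [v, if_neg hp, hw]
    rw [← hcard]
    nlinarith [mul_nonneg hN1pos.le (add_nonneg (sub_nonneg.mpr k1) (sub_nonneg.mpr k2))]
  obtain ⟨C, hC⟩ := hwsum
  refine ⟨(C + ∑ p ∈ T, |w p| * (degOneCount K p : ℝ)) / N1, ?_⟩
  filter_upwards [hC, exists_summable_wSum K, self_mem_nhdsWithin] with s hs hsum hs1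
  have hs1' : (1 : ℝ) < s := hs1
  have hcardle : ∀ τ (p : Nat.Primes), Nat.card {x : M ≃ₐ[ℚ] M // x * F p * x⁻¹ = τ} ≤
      Nat.card (M ≃ₐ[ℚ] M) := fun τ p => Nat.card_le_card_of_injective _ Subtype.val_injective
  have hv0 : ∀ p, 0 ≤ v p := fun p => by simp only [v]; split_ifs <;> positivity
  have hvle : ∀ p, v p ≤ (Nat.card (M ≃ₐ[ℚ] M) : ℝ) := fun p => by
    simp only [v]
    split_ifs
    · positivity
    · have a1 : (Nat.card {x : M ≃ₐ[ℚ] M // x * F p * x⁻¹ = σ} : ℝ) ≤ Nat.card (M ≃ₐ[ℚ] M) := by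
        exact_mod_cast hcardle σ p
      have a2 : (Nat.card {x : M ≃ₐ[ℚ] M // x * F p * x⁻¹ = σ⁻¹} : ℝ) ≤ Nat.card (M ≃ₐ[ℚ] M) := by
        exact_mod_cast hcardle σ⁻¹ p
      linarith
  have hvs : Summable fun p : Nat.Primes => v p * (p : ℝ) ^ (-s) :=
    Summable.of_norm_bounded
      ((Nat.Primes.summable_rpow.mpr (by linarith : -s < -1)).mul_left (Nat.card (M ≃ₐ[ℚ] M) : ℝ))
      fun p => by
        rw [norm_mul, Real.norm_of_nonneg (hv0 p), Real.norm_of_nonneg (by positivity)]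
        exact mul_le_mul_of_nonneg_right (hvle p) (by positivity)
  have hwb : ∃ C, ∀ p, |w p| ≤ C := ⟨(q.totient : ℝ), fun p => by
    have h0 : (0 : ℝ) ≤ q.totient := Nat.cast_nonneg _
    simp only [hw]
    split_ifs <;> · rw [abs_le]; constructor <;> linarith⟩
  set t : Nat.Primes → ℝ := fun p => if p ∈ T then |w p| * (degOneCount K p : ℝ) else 0
  have ht : Summable t := summable_of_ne_finset_zero (s := T) fun p hp => if_neg hp
  have hle : wSum K w s ≤ (N1 : ℝ) * ∑' p : Nat.Primes, v p * (p : ℝ) ^ (-s) +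
      ∑ p ∈ T, |w p| * (degOneCount K p : ℝ) := by
    rw [wSum, ← tsum_mul_left, show ∑ p ∈ T, |w p| * (degOneCount K p : ℝ) = ∑' p, t p by
      rw [tsum_eq_sum (s := T) fun p hp => if_neg hp]
      exact Finset.sum_congr rfl fun p hp => (if_pos hp).symm, ← (hvs.mul_left _).tsum_add ht]
    refine (hsum w hwb).tsum_le_tsum (fun p => ?_) ((hvs.mul_left _).add ht)
    have hp1 : (p : ℝ) ^ (-s) ≤ 1 :=
      Real.rpow_le_one_of_one_le_of_nonpos (by exact_mod_cast p.2.one_lt.le) (by linarith)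
    have hp0 : (0 : ℝ) ≤ (p : ℝ) ^ (-s) := by positivity
    by_cases hp : p ∈ T
    · have hnn : 0 ≤ (N1 : ℝ) * (v p * (p : ℝ) ^ (-s)) := by
        have := hv0 p
        positivity
      simp only [t, if_pos hp]
      refine le_trans ?_ (le_add_of_nonneg_left hnn)
      exact (mul_le_mul_of_nonneg_right (le_abs_self _) (by positivity)).trans
        (mul_le_mul_of_nonneg_left (mul_le_of_le_one_right (Nat.cast_nonneg _) hp1) (abs_nonneg _))
    · simp only [t, if_neg hp, add_zero]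
      rw [← mul_assoc, ← mul_assoc]
      exact mul_le_mul_of_nonneg_right (hvw p (hTS p hp)) hp0
  show Real.log (1 / (s - 1)) ≤ (∑' p : Nat.Primes, v p * (p : ℝ) ^ (-s)) + _
  rw [← sub_le_iff_le_add', le_div_iff₀ hN1pos]
  linarith

end FLTAgent.WeightOne.ChebAux
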