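import Fermat.Agent.WeightOne.ChebAux.Series

/-!
# Logarithm of a twisted zeta function

`exists_log_norm_twZeta`: `log ‖L(s, χ ∘ N)‖` differs by a bounded amount from the real part
`reSum` of the sum over the primes of degree one, by the Euler product. Consequences near `1⁺`:
`exists_reSum_le` (bounded above) and `exists_le_reSum` (bounded below as soon as it is not below
`-(1/2) log (1/(s-1))`, since a zero at `1` would force a whole `-log (1/(s-1))`).
-/

set_option autoImplicit false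
set_option linter.unusedSectionVars false

noncomputable section

open NumberField IsDedekindDomain Filter UniqueFactorizationMonoid
open FLTAgent.DS.Cheb FLTAgent.Density
open scoped nonZeroDivisors Topology

namespace FLTAgent.WeightOne.ChebAux

variable (K : Type*) [Field K] [NumberField K] {q : ℕ} [Fact q.Prime]
  (χ : DirichletCharacter ℂ q)

/-- The general term of the twisted zeta function. -/
def chiTerm (s : ℝ) : Ideal (𝓞 K) →* ℂ where
  toFun I := chiN K χ I * (normRpow K s I : ℂ)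
  map_one' := by
    rw [chiN, map_one, map_one]
    simp
  map_mul' I J := by simp [chiN, map_mul]; ring

/-- The twisted zeta function. -/
def twZeta (s : ℝ) : ℂ :=
  ∑' I : {I : Ideal (𝓞 K) // I ≠ ⊥}, chiN K χ I.1 * (normRpow K s I.1 : ℂ)

/-- The real part of the sum over primes of degree one. -/
def reSum (s : ℝ) : ℝ :=
  ∑' p : Nat.Primes, (χ ((p : ℕ) : ZMod q)).re * ((degOneCount K p : ℝ) * (p : ℝ) ^ (-s))

theorem norm_chiTerm_le (s : ℝ) (I : Ideal (𝓞 K)) : ‖chiTerm K χ s I‖ ≤ normRpow K s I := by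
  show ‖chiN K χ I * (normRpow K s I : ℂ)‖ ≤ _
  rw [norm_mul, Complex.norm_of_nonneg (normRpow_nonneg K s I)]
  exact mul_le_of_le_one_left (normRpow_nonneg K s I) (norm_chiN_le K χ I)

/-- A finite box of ideals approximates the twisted zeta function as well as it does the zeta
function. -/
theorem norm_twZeta_sub_box_le {s : ℝ}
    (hsum : Summable (fun I : {I : Ideal (𝓞 K) // I ≠ ⊥} => normRpow K s I.1))
    (T : Finset (HeightOneSpectrum (𝓞 K))) (B : Finset (T → ℕ)) :
    ‖twZeta K χ s - ∑ e ∈ B, chiTerm K χ s (boxIdeal K T e)‖ ≤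
      idealZeta K s - ∑ e ∈ B, normRpow K s (boxIdeal K T e) := by
  classical
  let ι : (T → ℕ) ↪ {I : Ideal (𝓞 K) // I ≠ ⊥} :=
    ⟨fun e => ⟨boxIdeal K T e, boxIdeal_ne_bot K T e⟩,
      fun a b h => boxIdeal_injective K T (congrArg Subtype.val h)⟩
  set F := B.map ι with hF
  set f : {I : Ideal (𝓞 K) // I ≠ ⊥} → ℂ := fun I => chiTerm K χ s I.1 with hf
  set g : {I : Ideal (𝓞 K) // I ≠ ⊥} → ℝ := fun I => normRpow K s I.1 with hg
  have hfs : Summable f := Summable.of_norm_bounded hsum fun I => norm_chiTerm_le K χ s I.1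
  have hz : twZeta K χ s = ∑' I, f I := rfl
  have hz' : idealZeta K s = ∑' I, g I := rfl
  have h1 : ∑ e ∈ B, chiTerm K χ s (boxIdeal K T e) = ∑ I ∈ F, f I := by
    rw [hF, Finset.sum_map]; rfl
  have h2 : ∑ e ∈ B, normRpow K s (boxIdeal K T e) = ∑ I ∈ F, g I := by
    rw [hF, Finset.sum_map]; rfl
  rw [hz, hz', h1, h2, ← hfs.sum_add_tsum_subtype_compl F,
    ← (hsum : Summable g).sum_add_tsum_subtype_compl F, add_sub_cancel_left, add_sub_cancel_left]
  exact tsum_of_norm_bounded ((hsum.subtype _).hasSum) fun I => norm_chiTerm_le K χ s I.1.1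

/-- The logarithm of the absolute value is the sum of the logarithms of the factors. -/
theorem norm_twZeta_eq {s : ℝ} (hs : 1 ≤ s)
    (hsum : Summable (fun I : {I : Ideal (𝓞 K) // I ≠ ⊥} => normRpow K s I.1))
    (hpos : 0 < idealZeta K s)
    {S : ℝ} (hS : HasSum (fun P : HeightOneSpectrum (𝓞 K) =>
      -Real.log ‖1 - chiTerm K χ s P.asIdeal‖) S) :
    ‖twZeta K χ s‖ = Real.exp S := by
  classical
  set z : HeightOneSpectrum (𝓞 K) → ℂ := fun P => chiTerm K χ s P.asIdeal with hz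
  set x : HeightOneSpectrum (𝓞 K) → ℝ := fun P => normRpow K s P.asIdeal with hxdef
  have hx : ∀ P, x P < 1 := fun P => lt_of_le_of_lt (normRpow_le_half K hs P) (by norm_num)
  have hzx : ∀ P, ‖z P‖ ≤ x P := fun P => norm_chiTerm_le K χ s _
  have hfin : ∀ T : Finset (HeightOneSpectrum (𝓞 K)),
      ‖twZeta K χ s - ∏ P : T, (1 - z P.1)⁻¹‖ ≤ idealZeta K s - ∏ P : T, (1 - x P.1)⁻¹ := by
    intro T
    have l1 : Tendsto (fun n => ∏ P : T, ∑ j ∈ Finset.range n, z P.1 ^ j) atTop
        (𝓝 (∏ P : T, (1 - z P.1)⁻¹)) :=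
      tendsto_finsetProd _ fun P _ =>
        (hasSum_geometric_of_norm_lt_one ((hzx P.1).trans_lt (hx P.1))).tendsto_sum_nat
    have l2 : Tendsto (fun n => ∏ P : T, ∑ j ∈ Finset.range n, x P.1 ^ j) atTop
        (𝓝 (∏ P : T, (1 - x P.1)⁻¹)) :=
      tendsto_finsetProd _ fun P _ =>
        (hasSum_geometric_of_lt_one (normRpow_nonneg K s _) (hx P.1)).tendsto_sum_nat
    refine le_of_tendsto_of_tendsto' (tendsto_const_nhds.sub l1).norm
      (tendsto_const_nhds.sub l2) fun n => ?_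
    have e1 : ∏ P : T, ∑ j ∈ Finset.range n, z P.1 ^ j =
        ∑ e ∈ Fintype.piFinset (fun _ : T => Finset.range n), chiTerm K χ s (boxIdeal K T e) := by
      rw [Finset.prod_univ_sum]
      exact Finset.sum_congr rfl (fun e _ => by simp [hz, boxIdeal, map_prod, map_pow])
    have e2 : ∏ P : T, ∑ j ∈ Finset.range n, x P.1 ^ j =
        ∑ e ∈ Fintype.piFinset (fun _ : T => Finset.range n), normRpow K s (boxIdeal K T e) := by
      rw [Finset.prod_univ_sum]
      exact Finset.sum_congr rfl (fun e _ => by simp [hxdef, boxIdeal, map_prod, map_pow])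
    rw [e1, e2]
    exact norm_twZeta_sub_box_le K χ hsum T _
  have hne : ∀ P, ‖1 - z P‖ ≠ 0 := fun P h => by
    rw [norm_eq_zero, sub_eq_zero] at h
    have := (hzx P).trans_lt (hx P)
    rw [← h, norm_one] at this
    exact lt_irrefl _ this
  have hzeta : Tendsto (fun T : Finset (HeightOneSpectrum (𝓞 K)) => ∏ P : T, (1 - x P.1)⁻¹)
      atTop (𝓝 (idealZeta K s)) := by
    have h := (Real.continuous_exp.tendsto _).comp (hasSum_eulerLog K hs hsum hpos)
    rw [Real.exp_log hpos] at h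
    refine h.congr fun T => ?_
    rw [Function.comp, Real.exp_sum, ← Finset.prod_coe_sort T]
    exact Finset.prod_congr rfl fun P _ => (geom_eq_exp_eulerLog K hs P.1).symm
  have hL : Tendsto (fun T : Finset (HeightOneSpectrum (𝓞 K)) => ∏ P : T, (1 - z P.1)⁻¹)
      atTop (𝓝 (twZeta K χ s)) := by
    refine tendsto_iff_norm_sub_tendsto_zero.mpr (squeeze_zero (fun T => norm_nonneg _)
      (fun T => (norm_sub_rev _ _).trans_le (hfin T)) ?_)
    simpa using (tendsto_const_nhds (x := idealZeta K s)).sub hzeta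
  refine tendsto_nhds_unique hL.norm ?_
  refine ((Real.continuous_exp.tendsto _).comp hS).congr fun T => ?_
  rw [Function.comp, Real.exp_sum, norm_prod, ← Finset.prod_coe_sort T]
  refine Finset.prod_congr rfl fun P _ => ?_
  rw [Real.exp_neg, Real.exp_log ((norm_nonneg _).lt_of_ne' (hne P.1)), norm_inv]

theorem abs_log_norm_one_sub_le {z : ℂ} (hz : ‖z‖ ≤ 1 / 2) :
    |(-Real.log ‖1 - z‖) - z.re| ≤ ‖z‖ ^ 2 := by
  have h := Complex.norm_log_one_add_sub_self_le (z := -z) (by rw [norm_neg]; linarith)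
  rw [norm_neg, ← sub_eq_add_neg] at h
  have h2 := (Complex.abs_re_le_norm _).trans h
  rw [Complex.sub_re, Complex.log_re, Complex.neg_re] at h2
  rw [show -Real.log ‖1 - z‖ - z.re = -(Real.log ‖1 - z‖ - -z.re) by ring, abs_neg]
  refine h2.trans ?_
  have h3 : (1 - ‖z‖)⁻¹ ≤ 2 := by
    rw [inv_le_comm₀ (by linarith) (by norm_num)]
    linarith
  nlinarith [sq_nonneg ‖z‖]

/-- `log ‖L(s, χ)‖` is the sum over primes of degree one up to a bounded amount. -/
theorem exists_log_norm_twZeta :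
    ∃ C : ℝ, ∀ᶠ s : ℝ in 𝓝[>] 1,
      Summable (fun p : Nat.Primes =>
        (χ ((p : ℕ) : ZMod q)).re * ((degOneCount K p : ℝ) * (p : ℝ) ^ (-s))) ∧
      twZeta K χ s ≠ 0 ∧ |Real.log ‖twZeta K χ s‖ - reSum K χ s| ≤ C := by
  classical
  obtain ⟨C, hC⟩ := eventually_log_idealZeta K
  refine ⟨3 * ∑' P : HeightOneSpectrum (𝓞 K), ((baseP K P : ℝ) ^ 2)⁻¹, ?_⟩
  filter_upwards [hC, self_mem_nhdsWithin] with s hs hs1
  have hs1' : 1 ≤ s := le_of_lt hs1
  set D : Set (HeightOneSpectrum (𝓞 K)) := {P | (Ideal.absNorm P.asIdeal).Prime}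
  set x : HeightOneSpectrum (𝓞 K) → ℝ := fun P => normRpow K s P.asIdeal with hxdef
  set z : HeightOneSpectrum (𝓞 K) → ℂ := fun P => chiTerm K χ s P.asIdeal with hz
  set y : HeightOneSpectrum (𝓞 K) → ℝ := D.indicator fun P => (z P).re with hy
  have hzx : ∀ P, ‖z P‖ ≤ x P := fun P => norm_chiTerm_le K χ s _
  have hxsum : Summable x := ((hasSum_eulerLog K hs1' hs.1 hs.2.1).summable).of_nonneg_of_le
    (fun P => normRpow_nonneg K s _) fun P => (eulerLog_bounds K hs1' P).1
  have hyle : ∀ P, |y P| ≤ x P := fun P => by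
    by_cases hP : P ∈ D
    · rw [hy, Set.indicator_of_mem hP]
      exact (Complex.abs_re_le_norm _).trans (hzx P)
    · rw [hy, Set.indicator_of_notMem hP, abs_zero]
      exact normRpow_nonneg K s _
  have hysum : Summable y := Summable.of_norm_bounded hxsum hyle
  have hdiff : ∀ P, ‖(-Real.log ‖1 - z P‖) - y P‖ ≤ 3 * ((baseP K P : ℝ) ^ 2)⁻¹ := by
    intro P
    obtain ⟨hp, -, hle, hnp⟩ := baseP_spec K P
    have hpos : (0 : ℝ) < baseP K P := by exact_mod_cast hp.pos
    have hxh : x P ≤ 1 / 2 := normRpow_le_half K hs1' P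
    have hx0 : 0 ≤ x P := normRpow_nonneg K s _
    have hl := abs_log_norm_one_sub_le ((hzx P).trans hxh)
    have hN : x P ≤ (Ideal.absNorm P.asIdeal : ℝ)⁻¹ := by
      rw [hxdef]
      simp only [normRpow_apply]
      rw [← Real.rpow_neg_one]
      exact Real.rpow_le_rpow_of_exponent_le
        (by exact_mod_cast (two_le_absNorm K P).trans' one_le_two) (by linarith)
    have hsq : ‖z P‖ ^ 2 ≤ ((baseP K P : ℝ) ^ 2)⁻¹ := by
      rw [← inv_pow]
      refine pow_le_pow_left₀ (norm_nonneg _) ((hzx P).trans (hN.trans ?_)) 2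
      exact inv_anti₀ hpos (by exact_mod_cast hle)
    have h0 : (0 : ℝ) ≤ ((baseP K P : ℝ) ^ 2)⁻¹ := by positivity
    rw [Real.norm_eq_abs]
    by_cases hD : P ∈ D
    · rw [hy, Set.indicator_of_mem hD]
      exact hl.trans (hsq.trans (by linarith))
    · rw [hy, Set.indicator_of_notMem hD, sub_zero]
      have h1 : x P ≤ ((baseP K P : ℝ) ^ 2)⁻¹ :=
        hN.trans (inv_anti₀ (pow_pos hpos 2) (by exact_mod_cast hnp hD))
      have h2 := (Complex.abs_re_le_norm (z P)).trans ((hzx P).trans h1)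
      calc |-Real.log ‖1 - z P‖| = |(-Real.log ‖1 - z P‖ - (z P).re) + (z P).re| := by
            rw [sub_add_cancel]
        _ ≤ |-Real.log ‖1 - z P‖ - (z P).re| + |(z P).re| := abs_add_le _ _
        _ ≤ _ := by linarith [hl.trans hsq]
  have hbase := (summable_baseP_sq K).mul_left 3
  have hd : Summable fun P => (-Real.log ‖1 - z P‖) - y P := Summable.of_norm_bounded hbase hdiff
  have hLsum : Summable fun P => -Real.log ‖1 - z P‖ :=
    (hd.add hysum).congr fun P => sub_add_cancel _ _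
  have hnorm := norm_twZeta_eq K χ hs1' hs.1 hs.2.1 hLsum.hasSum
  -- regroup by rational prime
  let e : (Σ p : Nat.Primes, {P : HeightOneSpectrum (𝓞 K) // Ideal.absNorm P.asIdeal = p}) ≃ D :=
    { toFun := fun x => ⟨x.2.1, by
        show (Ideal.absNorm x.2.1.asIdeal).Prime
        rw [x.2.2]; exact x.1.2⟩
      invFun := fun P => ⟨⟨_, P.2⟩, ⟨P.1, rfl⟩⟩
      left_inv := fun ⟨⟨p, hp⟩, ⟨P, hP⟩⟩ => by
        change Ideal.absNorm P.asIdeal = p at hP
        subst hP
        rfl
      right_inv := fun P => rfl }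
  have hfin : ∀ p : Nat.Primes, Finite {P : HeightOneSpectrum (𝓞 K) //
      Ideal.absNorm P.asIdeal = p} := by
    intro p
    have : Finite {I : Ideal (𝓞 K) // Ideal.absNorm I = p} :=
      (Ideal.finite_setOfPred_absNorm_eq (p : ℕ)).to_subtype
    exact Finite.of_injective
      (fun P => (⟨P.1.asIdeal, P.2⟩ : {I : Ideal (𝓞 K) // Ideal.absNorm I = p}))
      (fun a b hab => Subtype.ext (HeightOneSpectrum.ext (congrArg Subtype.val hab :)))
  have hDsum : Summable fun P : D => (z P.1).re := summable_subtype_iff_indicator.2 hysum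
  have hsig := e.summable_iff.2 hDsum
  have hinner : ∀ p : Nat.Primes,
      ∑' P : {P : HeightOneSpectrum (𝓞 K) // Ideal.absNorm P.asIdeal = p}, (z P.1).re =
        (χ ((p : ℕ) : ZMod q)).re * ((degOneCount K p : ℝ) * (p : ℝ) ^ (-s)) := by
    intro p
    have := hfin p
    have := Fintype.ofFinite {P : HeightOneSpectrum (𝓞 K) // Ideal.absNorm P.asIdeal = p}
    rw [tsum_fintype, Finset.sum_congr rfl
      (g := fun _ => (χ ((p : ℕ) : ZMod q)).re * (p : ℝ) ^ (-s)) (fun P _ => by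
        show (chiN K χ P.1.asIdeal * (normRpow K s P.1.asIdeal : ℂ)).re = _
        rw [Complex.re_mul_ofReal, normRpow_apply, chiN, P.2])]
    simp [degOneCount]
    ring
  have hcount : Summable (fun p : Nat.Primes =>
      (χ ((p : ℕ) : ZMod q)).re * ((degOneCount K p : ℝ) * (p : ℝ) ^ (-s))) :=
    hsig.sigma.congr hinner
  have hre : reSum K χ s = ∑' P, y P := by
    rw [hy, ← tsum_subtype, ← e.tsum_eq]
    exact (tsum_congr hinner).symm.trans (Summable.tsum_sigma'
      (fun p => by have := hfin p; exact Summable.of_finite) hsig).symm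
  refine ⟨hcount, fun h0 => ?_, ?_⟩
  · rw [h0, norm_zero] at hnorm
    exact (Real.exp_pos _).ne hnorm
  · rw [hnorm, Real.log_exp, hre, ← hLsum.tsum_sub hysum, ← tsum_mul_left, ← Real.norm_eq_abs]
    exact tsum_of_norm_bounded hbase.hasSum hdiff

theorem tendsto_log_one_div_sub :
    Tendsto (fun s : ℝ => Real.log (1 / (s - 1))) (𝓝[>] 1) atTop := by
  refine Real.tendsto_log_atTop.comp ?_
  have : Tendsto (fun s : ℝ => s - 1) (𝓝[>] 1) (𝓝[>] 0) := by
    refine tendsto_nhdsWithin_iff.2 ⟨?_, ?_⟩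
    · have h : Tendsto (fun s : ℝ => s - 1) (𝓝 1) (𝓝 (1 - 1)) :=
        (continuous_sub_right (1 : ℝ)).tendsto 1
      rw [sub_self] at h
      exact h.mono_left nhdsWithin_le_nhds
    · filter_upwards [self_mem_nhdsWithin] with s hs
      exact sub_pos.2 (show (1 : ℝ) < s from hs)
  simpa [one_div, Function.comp_def] using tendsto_inv_nhdsGT_zero.comp this

variable [IsTotallyComplex K]

/-- The sum over primes of degree one is bounded above. -/
theorem exists_reSum_le (P : (Ideal (𝓞 K))⁰)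
    (hPq : (P : Ideal (𝓞 K)) ⊔ Ideal.span {(q : 𝓞 K)} = ⊤) (hP : chiN K χ P ≠ 1) :
    ∃ C : ℝ, ∀ᶠ s : ℝ in 𝓝[>] 1, reSum K χ s ≤ C := by
  obtain ⟨l, hl⟩ := nice_twistedZeta K χ P hPq hP
  obtain ⟨C, hC⟩ := exists_log_norm_twZeta K χ
  refine ⟨C + Real.log (‖l‖ + 1), ?_⟩
  filter_upwards [hC, hl.tendsto.norm.eventually_le_const (lt_add_one ‖l‖)] with s hs hle
  have h1 : Real.log ‖twZeta K χ s‖ ≤ Real.log (‖l‖ + 1) :=
    Real.log_le_log (norm_pos_iff.mpr hs.2.1) hle
  linarith [(abs_le.mp hs.2.2).1]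

/-- The value at `1` does not vanish if the sum is not too negative. -/
theorem exists_le_reSum (P : (Ideal (𝓞 K))⁰)
    (hPq : (P : Ideal (𝓞 K)) ⊔ Ideal.span {(q : 𝓞 K)} = ⊤) (hP : chiN K χ P ≠ 1) {C₀ : ℝ}
    (hlow : ∀ᶠ s : ℝ in 𝓝[>] 1, -(1 / 2) * Real.log (1 / (s - 1)) - C₀ ≤ reSum K χ s) :
    ∃ C : ℝ, ∀ᶠ s : ℝ in 𝓝[>] 1, -C ≤ reSum K χ s := by
  obtain ⟨l, hl⟩ := nice_twistedZeta K χ P hPq hP
  obtain ⟨C, hC⟩ := exists_log_norm_twZeta K χ
  by_cases hl0 : l = 0
  · exfalso
    obtain ⟨c, hc⟩ := Asymptotics.IsBigO.bound hl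
    set c' := max c 1
    have hev : ∀ᶠ s : ℝ in 𝓝[>] 1,
        (1 / 2) * Real.log (1 / (s - 1)) ≤ C₀ + C + Real.log c' := by
      filter_upwards [hC, hlow, hc, self_mem_nhdsWithin] with s hs hlo hb hs1
      have hs1' : (1 : ℝ) < s := hs1
      rw [hl0, sub_zero, Real.norm_eq_abs, abs_of_pos (by linarith : 0 < s - 1)] at hb
      have h1 : Real.log ‖twZeta K χ s‖ ≤ Real.log (c' * (s - 1)) :=
        Real.log_le_log (norm_pos_iff.mpr hs.2.1)
          (hb.trans (mul_le_mul_of_nonneg_right (le_max_left _ _) (by linarith)))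
      rw [Real.log_mul (lt_of_lt_of_le one_pos (le_max_right c 1)).ne' (by linarith)] at h1
      rw [one_div (s - 1), Real.log_inv] at hlo ⊢
      linarith [(abs_le.mp hs.2.2).1]
    obtain ⟨s, h1, h2⟩ := (hev.and
      (tendsto_log_one_div_sub.eventually_gt_atTop (2 * (C₀ + C + Real.log c')))).exists
    linarith
  · refine ⟨C - Real.log (‖l‖ / 2), ?_⟩
    filter_upwards [hC, hl.tendsto.norm.eventually_const_le (half_lt_self (norm_pos_iff.mpr hl0))]
      with s hs hge
    have h1 : Real.log (‖l‖ / 2) ≤ Real.log ‖twZeta K χ s‖ :=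
      Real.log_le_log (half_pos (norm_pos_iff.mpr hl0)) hge
    linarith [(abs_le.mp hs.2.2).2]

end FLTAgent.WeightOne.ChebAux
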