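import Fermat.Agent.DS.Cheb.LBound

/-!
# The error term of translation invariance of lattice sums at `s = 1`

`Nice f l` means that `f` tends to `l` at `1⁺` at linear speed. `nice_transErr`: over a number
field, the difference between the sum over a translate `a + m 𝓞` and the scaled lattice sum is
nice at `1`, from the pointwise bound `exists_pointwise_var` on its variation in `s`.
-/

set_option autoImplicit false
set_option linter.unusedSectionVars false

noncomputable section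

open NumberField NumberField.InfinitePlace Filter Asymptotics
open FLTAgent.DS.Cheb
open scoped Topology Classical

namespace FLTAgent.WeightOne.ChebAux

/-- `f` tends to `l` at `1⁺` at linear speed. -/
def Nice (f : ℝ → ℂ) (l : ℂ) : Prop :=
  (fun s => f s - l) =O[𝓝[>] (1 : ℝ)] fun s => s - 1

theorem Nice.congr {f g : ℝ → ℂ} {l : ℂ} (hf : Nice f l) (h : f =ᶠ[𝓝[>] (1 : ℝ)] g) : Nice g l :=
  IsBigO.congr' hf (h.mono fun s hs => by simp only [hs]) EventuallyEq.rfl

theorem nice_const (c : ℂ) : Nice (fun _ => c) c := by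
  simp only [Nice, sub_self]
  exact isBigO_zero _ _

theorem Nice.add {f g : ℝ → ℂ} {a b : ℂ} (hf : Nice f a) (hg : Nice g b) :
    Nice (fun s => f s + g s) (a + b) :=
  (IsBigO.add hf hg).congr_left fun s => by ring

theorem Nice.sub {f g : ℝ → ℂ} {a b : ℂ} (hf : Nice f a) (hg : Nice g b) :
    Nice (fun s => f s - g s) (a - b) :=
  (IsBigO.sub hf hg).congr_left fun s => by ring

theorem Nice.const_mul {f : ℝ → ℂ} {a : ℂ} (c : ℂ) (hf : Nice f a) :
    Nice (fun s => c * f s) (c * a) :=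
  (IsBigO.const_mul_left hf c).congr_left fun s => by ring

theorem Nice.tendsto {f : ℝ → ℂ} {l : ℂ} (hf : Nice f l) : Tendsto f (𝓝[>] 1) (𝓝 l) := by
  refine tendsto_sub_nhds_zero_iff.mp (IsBigO.trans_tendsto hf ?_)
  refine tendsto_nhdsWithin_of_tendsto_nhds ?_
  have h0 : Continuous fun s : ℝ => s - 1 := by fun_prop
  simpa using h0.tendsto (1 : ℝ)

theorem Nice.mul {f g : ℝ → ℂ} {a b : ℂ} (hf : Nice f a) (hg : Nice g b) :
    Nice (fun s => f s * g s) (a * b) := by
  have h1 : (fun s => (f s - a) * g s) =O[𝓝[>] (1 : ℝ)] fun s => (s - 1) * (1 : ℝ) :=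
    IsBigO.mul hf (hg.tendsto.isBigO_one ℝ)
  have h2 : (fun s => a * (g s - b)) =O[𝓝[>] (1 : ℝ)] fun s => s - 1 := IsBigO.const_mul_left hg a
  exact ((h1.congr_right fun s => mul_one _).add h2).congr_left fun s => by ring

theorem nice_sum {ι : Type*} (F : Finset ι) {f : ι → ℝ → ℂ} {l : ι → ℂ}
    (h : ∀ i ∈ F, Nice (f i) (l i)) : Nice (fun s => ∑ i ∈ F, f i s) (∑ i ∈ F, l i) :=
  (IsBigO.fun_sum h).congr_left fun _ => Finset.sum_sub_distrib _ _

theorem nice_of_hasDerivAt {f : ℝ → ℝ} {d : ℝ} (h : HasDerivAt f d 1) :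
    Nice (fun s => (f s : ℂ)) (f 1 : ℂ) := by
  have h1 := h.hasFDerivAt.isBigO_sub.mono (nhdsWithin_le_nhds (s := Set.Ioi (1 : ℝ)))
  refine IsBigO.of_norm_left ?_
  refine h1.norm_left.congr_left fun s => ?_
  rw [← Complex.ofReal_sub, Complex.norm_real]

theorem Nice.inv {f : ℝ → ℂ} {l : ℂ} (hf : Nice f l) (hl : l ≠ 0) :
    Nice (fun s => (f s)⁻¹) l⁻¹ := by
  have hne : ∀ᶠ s in 𝓝[>] (1 : ℝ), f s ≠ 0 := hf.tendsto.eventually_ne hl
  have h1 : (fun s => (f s - l) * (-(f s)⁻¹ * l⁻¹)) =O[𝓝[>] (1 : ℝ)] fun s => (s - 1) * (1 : ℝ) :=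
    IsBigO.mul hf (((hf.tendsto.inv₀ hl).neg.mul_const l⁻¹).isBigO_one ℝ)
  refine IsBigO.congr' (h1.congr_right fun s => mul_one _) ?_ EventuallyEq.rfl
  filter_upwards [hne] with s hs
  field_simp
  ring

/-- The difference quotient at `1` of `t ↦ r ^ t`. -/
theorem nice_slope {r : ℝ} (hr : 0 < r) :
    Nice (fun s => (((r ^ (s - 1) - 1) / (s - 1) : ℝ) : ℂ)) (Real.log r : ℂ) := by
  set c := Real.log r with hc
  refine IsBigO.of_bound (c ^ 2) ?_
  have hev : ∀ᶠ s in 𝓝[>] (1 : ℝ), |c * (s - 1)| ≤ 1 := by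
    refine Tendsto.eventually_le_const (v := (0 : ℝ)) one_pos ?_
    refine tendsto_nhdsWithin_of_tendsto_nhds ?_
    have h0 : Continuous fun s : ℝ => |c * (s - 1)| := by fun_prop
    simpa using h0.tendsto (1 : ℝ)
  filter_upwards [hev, self_mem_nhdsWithin] with s hs hs1
  have hs1' : (0 : ℝ) < s - 1 := sub_pos.mpr hs1
  rw [← Complex.ofReal_sub, Complex.norm_real, Real.norm_eq_abs, Real.norm_eq_abs,
    abs_of_pos hs1', Real.rpow_def_of_pos hr, ← hc]
  have h := Real.abs_exp_sub_one_sub_id_le hs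
  rw [show (Real.exp (c * (s - 1)) - 1) / (s - 1) - c =
    (Real.exp (c * (s - 1)) - 1 - c * (s - 1)) / (s - 1) by field_simp, abs_div, abs_of_pos hs1',
    div_le_iff₀ hs1']
  refine h.trans (le_of_eq ?_)
  ring

/-! ### The error term -/

variable (K : Type*) [Field K] [NumberField K]

theorem summable_size_half :
    Summable fun β : 𝓞 K => size K (β : K) ^ (-((deg K : ℝ) + 1 / 2)) := by
  have hfin : Module.finrank ℤ (mixedEmbedding.integerLattice K) = deg K :=
    (ZLattice.rank ℝ (mixedEmbedding.integerLattice K)).trans (mixedEmbedding.finrank K)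
  have h := ZLattice.summable_norm_rpow (mixedEmbedding.integerLattice K)
    (-((deg K : ℝ) + 1 / 2)) (by rw [hfin]; linarith)
  let e : 𝓞 K → mixedEmbedding.integerLattice K :=
    fun β => ⟨mixedEmbedding K (algebraMap (𝓞 K) K β), ⟨β, rfl⟩⟩
  have he : Function.Injective e := fun a b hab =>
    RingOfIntegers.ext (mixedEmbedding_injective K (congrArg Subtype.val hab))
  have h' := h.comp_injective he
  simp only [Function.comp_def] at h'
  exact h'

theorem abs_exp_small {ε u K1 : ℝ} (hε : 0 ≤ ε) (h1 : Real.exp (-(ε * u)) ≤ K1) (hK : 1 ≤ K1) :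
    |Real.exp (-(ε * u)) - 1| ≤ K1 * (ε * |u|) := by
  have h := abs_exp_sub_exp_le (-(ε * u)) 0
  rw [Real.exp_zero, sub_zero, abs_neg, abs_mul, abs_of_nonneg hε] at h
  exact h.trans (mul_le_mul_of_nonneg_right (max_le h1 hK) (by positivity))

/-- The real variable computation behind `exists_pointwise_var`. -/
theorem var_bound {u v ε M0 P U Q W1 W0 : ℝ} (hε : 0 ≤ ε) (hM0 : 1 ≤ M0) (hP : 0 ≤ P)
    (hu2 : Real.exp (-u) ≤ P) (hv2 : Real.exp (-v) ≤ P) (hu3 : Real.exp (-(ε * u)) ≤ M0)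
    (hv3 : Real.exp (-(ε * v)) ≤ M0) (hu1 : |u| ≤ U) (huv : |u - v| ≤ Q)
    (hW : |W1| ≤ W0) (W : ℝ) (hW' : 0 ≤ W) (hW1 : W ≤ 1) :
    |W1 * (Real.exp (-u) * (Real.exp (-(ε * u)) - 1)) +
        W * (Real.exp (-u) * (Real.exp (-(ε * u)) - 1) -
          Real.exp (-v) * (Real.exp (-(ε * v)) - 1))| ≤
      ε * P * M0 * (W0 * U + Q * (U + 1)) := by
  have hQ : 0 ≤ Q := (abs_nonneg _).trans huv
  have hU : 0 ≤ U := (abs_nonneg _).trans hu1
  have hW0 : 0 ≤ W0 := (abs_nonneg _).trans hW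
  have hM : 0 ≤ M0 := zero_le_one.trans hM0
  have a1 : |Real.exp (-(ε * u)) - 1| ≤ M0 * (ε * U) :=
    (abs_exp_small hε hu3 hM0).trans (mul_le_mul_of_nonneg_left
      (mul_le_mul_of_nonneg_left hu1 hε) hM)
  have a2 : |Real.exp (-u) - Real.exp (-v)| ≤ P * Q := by
    refine (abs_exp_sub_exp_le _ _).trans ?_
    rw [neg_sub_neg, abs_sub_comm]
    exact mul_le_mul (max_le hu2 hv2) huv (abs_nonneg _) hP
  have a3 : |Real.exp (-(ε * u)) - Real.exp (-(ε * v))| ≤ M0 * (ε * Q) := by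
    refine (abs_exp_sub_exp_le _ _).trans ?_
    rw [neg_sub_neg, ← mul_sub, abs_mul, abs_of_nonneg hε, abs_sub_comm]
    exact mul_le_mul (max_le hu3 hv3) (mul_le_mul_of_nonneg_left huv hε)
      (mul_nonneg hε (abs_nonneg _)) hM
  rw [show Real.exp (-u) * (Real.exp (-(ε * u)) - 1) -
      Real.exp (-v) * (Real.exp (-(ε * v)) - 1) =
      (Real.exp (-u) - Real.exp (-v)) * (Real.exp (-(ε * u)) - 1) +
        Real.exp (-v) * (Real.exp (-(ε * u)) - Real.exp (-(ε * v))) by ring]
  have b1 : |Real.exp (-u) * (Real.exp (-(ε * u)) - 1)| ≤ P * (M0 * (ε * U)) := by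
    rw [abs_mul, abs_of_pos (Real.exp_pos _)]
    exact mul_le_mul hu2 a1 (abs_nonneg _) hP
  have b2 : |(Real.exp (-u) - Real.exp (-v)) * (Real.exp (-(ε * u)) - 1)| ≤
      P * Q * (M0 * (ε * U)) := by
    rw [abs_mul]
    exact mul_le_mul a2 a1 (abs_nonneg _) (mul_nonneg hP hQ)
  have b3 : |Real.exp (-v) * (Real.exp (-(ε * u)) - Real.exp (-(ε * v)))| ≤
      P * (M0 * (ε * Q)) := by
    rw [abs_mul, abs_of_pos (Real.exp_pos _)]
    exact mul_le_mul hv2 a3 (abs_nonneg _) hP
  refine (abs_add_le _ _).trans ((add_le_add (b := W0 * (P * (M0 * (ε * U))))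
    (d := P * Q * (M0 * (ε * U)) + P * (M0 * (ε * Q))) ?_ ?_).trans (le_of_eq (by ring)))
  · rw [abs_mul]
    exact mul_le_mul hW b1 (abs_nonneg _) hW0
  · rw [abs_mul, abs_of_nonneg hW']
    exact ((mul_le_of_le_one_left (abs_nonneg _) hW1).trans (abs_add_le _ _)).trans
      (add_le_add b2 b3)

/-- The variation in `s` of the effect of a translation. -/
theorem exists_pointwise_var (a : K) : ∃ C R : ℝ, 0 ≤ C ∧ 1 ≤ R ∧ ∀ s : ℝ, 1 < s → s ≤ 2 →
    ∀ x : K, R ≤ size K x →
      |(gs K s (x + a) - gs K s x) - (gs K 1 (x + a) - gs K 1 x)| ≤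
        C * (s - 1) * size K x ^ (-((deg K : ℝ) + 1 / 2)) := by
  obtain ⟨κ, hκ, hcone⟩ := exists_cone K
  obtain ⟨CW, hCW, hlip⟩ := exists_coord_lip K
  set A := size K a with hA
  have hA0 : 0 ≤ A := size_nonneg K a
  set κ' := min κ 1 / 3 with hκ'
  have hκ'0 : 0 < κ' := by positivity
  have hκ'1 : κ' ≤ 1 := by rw [hκ']; linarith [min_le_right κ 1]
  have hd := deg_pos K
  set E := A / κ' with hE
  set D := (deg K : ℝ) with hD
  have hE0 : 0 ≤ E := by positivity
  set M0 := κ' ^ (-D) with hM0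
  have hM01 : 1 ≤ M0 := Real.one_le_rpow_of_pos_of_le_one_of_nonpos hκ'0 hκ'1 (by linarith)
  set U := D * (|Real.log κ'| + 3) with hU
  set CU := CW * (D * (E + E)) with hCU
  refine ⟨CU * M0 * M0 * U + M0 * M0 * (D * E) * (U + 1),
    A / κ' + 1, by positivity, by linarith, fun s hs1 hs2 x hx => ?_⟩
  set S := size K x with hS
  clear_value κ' E D S
  have hS1 : 1 ≤ S := le_trans (by linarith) hx
  have hS0 : 0 < S := zero_lt_one.trans_le hS1
  have hAS : A ≤ κ' * S := by
    have h : E ≤ S := by linarith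
    rw [hE, div_le_iff₀ hκ'0] at h
    linarith
  set y := x + a with hy
  have hdiff : ∀ w : InfinitePlace K, |w y - w x| ≤ A := fun w => by
    refine (abs_place_sub_le K w y x).trans ?_
    rw [hy, add_sub_cancel_left]
    exact hA ▸ place_le_size K w a
  have hε : 0 ≤ s - 1 := by linarith
  by_cases h0 : (x ≠ 0 ∧ weight K x ≠ 0) ∨ (y ≠ 0 ∧ weight K y ≠ 0)
  swap
  · push Not at h0
    have hz : ∀ z : K, ∀ σ : ℝ, σ ≠ 0 → (z ≠ 0 → weight K z = 0) → gs K σ z = 0 :=
      fun z σ hσ hz => by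
        rcases eq_or_ne z 0 with rfl | h
        · exact gs_zero K hσ
        · simp [gs, hz h]
    rw [hz x s (by linarith) h0.1, hz y s (by linarith) h0.2, hz x 1 one_ne_zero h0.1,
      hz y 1 one_ne_zero h0.2]
    simp only [sub_zero, abs_zero]
    positivity
  set t := κ' * S with ht
  clear_value t
  have ht0 : 0 < t := ht ▸ mul_pos hκ'0 hS0
  obtain ⟨w1, hw1⟩ := exists_place_eq_size K x
  have hmin : min κ 1 = 3 * κ' := by rw [hκ']; ring
  have hlow : ∀ w : InfinitePlace K, t ≤ w x ∧ t ≤ w y := by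
    intro w
    have hd1 := abs_le.mp (hdiff w)
    have hd1' := abs_le.mp (hdiff w1)
    have hk1 : min κ 1 ≤ κ := min_le_left _ _
    have hk2 : min κ 1 ≤ 1 := min_le_right _ _
    rcases h0 with ⟨hx0, hWx⟩ | ⟨hy0, hWy⟩
    · have h := hcone x hx0 hWx w w1
      rw [← hw1, ← hS] at h
      have h3 : 3 * κ' * S ≤ w x := (mul_le_mul_of_nonneg_right (hmin ▸ hk1) hS0.le).trans h
      have h7 := mul_pos hκ'0 hS0
      exact ⟨by linarith, by linarith⟩
    · have h := hcone y hy0 hWy w w1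
      have h4 : S - A ≤ w1 y := by rw [hS, hw1]; linarith
      have h6 : 0 ≤ S - A := by
        linarith [mul_le_of_le_one_left hS0.le (by linarith : κ' ≤ 1)]
      have h5 : 3 * κ' * (S - A) ≤ w y := (mul_le_mul (hmin ▸ hk1) h4 h6 hκ.le).trans h
      have h7 := mul_le_mul_of_nonneg_left hAS (show (0 : ℝ) ≤ 3 * κ' by linarith)
      have h8 := mul_le_of_le_one_left ht0.le (show 3 * κ' ≤ 1 by linarith)
      have h9 : 3 * κ' * (S - A) = 3 * (κ' * S) - 3 * κ' * A := by ring
      exact ⟨by linarith, by linarith⟩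
  have hx0 : x ≠ 0 := fun h => by
    have := (hlow w1).1
    rw [h, map_zero] at this
    linarith
  have hy0 : y ≠ 0 := fun h => by
    have := (hlow w1).2
    rw [h, map_zero] at this
    linarith
  have hlog : ∀ w : InfinitePlace K, |Real.log (w y) - Real.log (w x)| ≤ E / S := fun w => by
    refine (abs_log_sub_log_le ht0 (hlow w).2 (hlow w).1).trans ?_
    rw [ht, hE, div_div]
    exact div_le_div_of_nonneg_right (hdiff w) (by positivity)
  have hES : 0 ≤ E / S := by positivity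
  set u := Real.log (normR K y) with hu
  set v := Real.log (normR K x) with hv
  have hlogN : |u - v| ≤ D * (E / S) := by
    rw [hu, hv, log_normR K hy0, log_normR K hx0, ← Finset.sum_sub_distrib, hD, ← sum_mult_real,
      Finset.sum_mul]
    refine (Finset.abs_sum_le_sum_abs _ _).trans (Finset.sum_le_sum fun w _ => ?_)
    rw [← mul_sub, abs_mul, Nat.abs_cast]
    exact mul_le_mul_of_nonneg_left (hlog w) (Nat.cast_nonneg _)
  have hvec : ‖logVec K y - logVec K x‖ ≤ D * ((E + E) / S) := by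
    refine (pi_norm_le_iff_of_nonneg (mul_nonneg hd.le (div_nonneg (by linarith) (by linarith)))).mpr fun w => ?_
    rw [Real.norm_eq_abs, Pi.sub_apply, logVec, logVec, ← mul_sub, abs_mul, Nat.abs_cast]
    have hmd : (w.1.mult : ℝ) ≤ D := by
      rw [hD, ← sum_mult_real]
      exact Finset.single_le_sum (fun u _ => (Nat.cast_nonneg u.mult : (0 : ℝ) ≤ _))
        (Finset.mem_univ w.1)
    refine mul_le_mul hmd ?_ (abs_nonneg _) hd.le
    rw [sub_sub_sub_comm, add_div]
    refine (abs_sub _ _).trans (add_le_add (hlog w.1) ?_)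
    rw [← sub_div, abs_div, ← hD, abs_of_pos hd, div_le_iff₀ hd]
    linarith
  -- bounds for the norms
  have hup : ∀ w : InfinitePlace K, w x ≤ 2 * S ∧ w y ≤ 2 * S := fun w => by
    have h1 := place_le_size K w x
    have h2 := (abs_le.mp (hdiff w)).2
    have h3 : κ' * S ≤ S := mul_le_of_le_one_left (by linarith) hκ'1
    exact ⟨by linarith, by linarith⟩
  set R1 := Real.log S with hR1
  have hR10 : 0 ≤ R1 := Real.log_nonneg hS1
  have hR12 : R1 + 1 ≤ 3 * Real.sqrt S := by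
    have h := Real.log_le_rpow_div (x := S) (by linarith) (show (0 : ℝ) < 1 / 2 by norm_num)
    rw [← Real.sqrt_eq_rpow] at h
    have h1 : (1 : ℝ) ≤ Real.sqrt S := Real.one_le_sqrt.mpr hS1
    have : Real.sqrt S / (1 / 2) = 2 * Real.sqrt S := by ring
    linarith
  have habs : ∀ z : K, z ≠ 0 → (∀ w : InfinitePlace K, t ≤ w z ∧ w z ≤ 2 * S) →
      |Real.log (normR K z)| ≤ D * (|Real.log κ'| + 1 + R1) ∧
        Real.exp (-Real.log (normR K z)) ≤ M0 * S ^ (-D) ∧
        Real.exp (-((s - 1) * Real.log (normR K z))) ≤ M0 := by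
    intro z hz0 hz
    have hlz : ∀ w : InfinitePlace K, Real.log κ' + R1 ≤ Real.log (w z) ∧
        Real.log (w z) ≤ 1 + R1 := by
      intro w
      refine ⟨?_, ?_⟩
      · rw [hR1, ← Real.log_mul hκ'0.ne' (by linarith)]
        exact Real.log_le_log (ht ▸ ht0) (ht ▸ (hz w).1)
      · refine (Real.log_le_log (lt_of_lt_of_le ht0 (hz w).1) (hz w).2).trans ?_
        rw [Real.log_mul two_ne_zero (by linarith)]
        linarith [Real.log_two_lt_d9]
    have hsum : D * (Real.log κ' + R1) ≤ Real.log (normR K z) ∧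
        Real.log (normR K z) ≤ D * (1 + R1) := by
      rw [log_normR K hz0, hD, ← sum_mult_real, Finset.sum_mul, Finset.sum_mul]
      exact ⟨Finset.sum_le_sum fun w _ => mul_le_mul_of_nonneg_left (hlz w).1 (Nat.cast_nonneg _),
        Finset.sum_le_sum fun w _ => mul_le_mul_of_nonneg_left (hlz w).2 (Nat.cast_nonneg _)⟩
    have hneg := neg_abs_le (Real.log κ')
    refine ⟨abs_le.mpr ⟨by linarith [mul_le_mul_of_nonneg_left hneg hd.le, mul_nonneg hd.le hR10],
      by linarith [mul_nonneg hd.le (abs_nonneg (Real.log κ'))]⟩, ?_, ?_⟩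
    · rw [hM0, Real.rpow_def_of_pos hκ'0, Real.rpow_def_of_pos (by linarith : 0 < S), ← hR1,
        ← Real.exp_add, Real.exp_le_exp]
      linarith [hsum.1]
    · rw [hM0, Real.rpow_def_of_pos hκ'0, Real.exp_le_exp]
      have hneg' : Real.log κ' ≤ 0 := Real.log_nonpos hκ'0.le hκ'1
      have h9 := mul_le_mul_of_nonneg_left hsum.1 hε
      linarith [mul_nonneg hε (mul_nonneg hd.le hR10),
        mul_nonneg (sub_nonneg.mpr (by linarith : s - 1 ≤ 1)) (mul_nonneg hd.le (neg_nonneg.mpr hneg'))]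
  obtain ⟨hu1, hu2, hu3⟩ := habs y hy0 fun w => ⟨(hlow w).2, (hup w).2⟩
  obtain ⟨hv1, hv2, hv3⟩ := habs x hx0 fun w => ⟨(hlow w).1, (hup w).1⟩
  rw [← hu] at hu1 hu2 hu3
  rw [← hv] at hv1 hv2 hv3
  have hnorm : ∀ z : K, z ≠ 0 → gs K s z - gs K 1 z = weight K z *
      (Real.exp (-Real.log (normR K z)) * (Real.exp (-((s - 1) * Real.log (normR K z))) - 1)) := by
    intro z hz0
    rw [gs, gs, Real.rpow_def_of_pos (normR_pos K hz0), Real.rpow_def_of_pos (normR_pos K hz0),
      mul_sub (Real.exp _), ← Real.exp_add]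
    ring_nf
  rw [show (gs K s y - gs K s x) - (gs K 1 y - gs K 1 x) =
      (gs K s y - gs K 1 y) - (gs K s x - gs K 1 x) by ring, hnorm y hy0, hnorm x hx0, ← hu, ← hv]
  rw [show weight K y * (Real.exp (-u) * (Real.exp (-((s - 1) * u)) - 1)) -
      weight K x * (Real.exp (-v) * (Real.exp (-((s - 1) * v)) - 1)) =
      (weight K y - weight K x) * (Real.exp (-u) * (Real.exp (-((s - 1) * u)) - 1)) +
        weight K x * (Real.exp (-u) * (Real.exp (-((s - 1) * u)) - 1) -
          Real.exp (-v) * (Real.exp (-((s - 1) * v)) - 1)) by ring]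
  have hsq : (1 : ℝ) ≤ Real.sqrt S := Real.one_le_sqrt.mpr hS1
  have hU0 : 0 ≤ U := mul_nonneg hd.le (add_nonneg (abs_nonneg _) (by norm_num))
  have hUb : |u| ≤ U * Real.sqrt S := by
    refine hu1.trans ?_
    rw [hU, mul_assoc]
    refine mul_le_mul_of_nonneg_left ?_ hd.le
    have h7 := mul_le_mul_of_nonneg_left hsq (abs_nonneg (Real.log κ'))
    rw [add_mul]
    linarith
  have hW : |weight K y - weight K x| ≤ CU / S := by
    refine (hlip y x).trans ?_
    rw [hCU, mul_div_assoc, mul_div_assoc]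
    exact mul_le_mul_of_nonneg_left hvec hCW
  have hM00 : 0 ≤ M0 := zero_le_one.trans hM01
  have hP : 0 ≤ M0 * S ^ (-D) := mul_nonneg hM00 (Real.rpow_nonneg (by linarith) _)
  refine (var_bound hε hM01 hP hu2 hv2 hu3 hv3 hUb hlogN hW (weight K x) (weight_nonneg K x)
    (weight_le_one K x)).trans ?_
  have hS' : S ^ (-(D + 1 / 2)) = S ^ (-D) * (Real.sqrt S / S) := by
    rw [neg_add, Real.rpow_add (by linarith), Real.sqrt_eq_rpow]
    congr 1
    rw [div_eq_mul_inv (S ^ (1 / 2 : ℝ)), ← Real.rpow_neg_one, ← Real.rpow_add (by linarith)]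
    norm_num
  rw [hS']
  have h8 : D * (E / S) * (U * Real.sqrt S + 1) ≤ D * (E / S) * ((U + 1) * Real.sqrt S) :=
    mul_le_mul_of_nonneg_left (by linarith) (mul_nonneg hd.le hES)
  calc (s - 1) * (M0 * S ^ (-D)) * M0 * (CU / S * (U * Real.sqrt S) +
        D * (E / S) * (U * Real.sqrt S + 1))
      ≤ (s - 1) * (M0 * S ^ (-D)) * M0 * (CU / S * (U * Real.sqrt S) +
        D * (E / S) * ((U + 1) * Real.sqrt S)) :=
        mul_le_mul_of_nonneg_left (by linarith) (mul_nonneg (mul_nonneg hε hP) hM00)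
    _ = _ := by ring

theorem abs_gs_int_var {s : ℝ} (hs : 1 < s) (β : 𝓞 K) :
    |gs K s (β : K) - gs K 1 (β : K)| ≤ s - 1 := by
  rcases eq_or_ne β 0 with rfl | hβ
  · rw [show (((0 : 𝓞 K)) : K) = 0 from map_zero _, gs_zero K (by linarith : s ≠ 0),
      gs_zero K one_ne_zero, sub_zero, abs_zero]
    linarith
  · have h1 := normR_int_ge_one K hβ
    have hw := weight_nonneg K (β : K)
    set N := normR K (β : K)
    have hl : 0 ≤ Real.log N := Real.log_nonneg h1
    rw [gs, gs, ← mul_sub, abs_mul, abs_of_nonneg hw]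
    refine (mul_le_of_le_one_left (abs_nonneg _) (weight_le_one K _)).trans ?_
    rw [Real.rpow_def_of_pos (by linarith), Real.rpow_def_of_pos (by linarith)]
    refine (abs_exp_sub_exp_le _ _).trans ?_
    rw [← mul_sub, abs_mul, abs_of_nonneg hl, show |(-s) - (-1 : ℝ)| = s - 1 by
      rw [abs_sub_comm, abs_of_nonneg (by linarith)]; ring]
    rw [← mul_assoc]
    refine mul_le_of_le_one_left (by linarith) ?_
    have hb : max (Real.exp (Real.log N * -s)) (Real.exp (Real.log N * -1)) ≤ N⁻¹ := by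
      refine max_le ?_ ?_ <;>
      · rw [← Real.exp_log (by linarith : 0 < N), Real.log_exp, ← Real.exp_neg, Real.exp_le_exp]
        nlinarith
    refine le_trans (mul_le_mul_of_nonneg_right hb hl) ?_
    rw [← div_eq_inv_mul, div_le_one (by linarith)]
    exact (Real.log_le_sub_one_of_pos (by linarith)).trans (by linarith)

/-- The error term of the translation invariance. -/
def transErr (a : 𝓞 K) (m : ℕ) (s : ℝ) : ℝ :=
  (∑' β : 𝓞 K, gs K s ((a + m * β : 𝓞 K) : K)) - ((m : ℝ) ^ deg K) ^ (-s) * latSum K s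

theorem nice_transErr (a : 𝓞 K) {m : ℕ} (hm : m ≠ 0) :
    ∃ l : ℂ, Nice (fun s => (transErr K a m s : ℂ)) l := by
  obtain ⟨C0, R0, hC0, hR0, hvar⟩ := exists_pointwise_var K (a : K)
  obtain ⟨C1, R1, hC1, hR1, hpt⟩ := exists_pointwise K (a : K)
  obtain ⟨Cb, hCb⟩ := exists_translate_bound K a hm
  obtain ⟨T, hT⟩ := latSum_bound K
  set R := max R0 R1
  set p : ℝ := -((deg K : ℝ) + 1 / 2) with hp
  set C := max C0 (2 * R ^ (-p)) with hC
  set d : ℝ → 𝓞 K → ℝ := fun s β =>
    gs K s ((a + m * β : 𝓞 K) : K) - gs K s (((m : 𝓞 K) * β : 𝓞 K) : K)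
  set b : 𝓞 K → ℝ := fun β =>
    (C * (m : ℝ) ^ p) * size K (β : K) ^ p + if β = 0 then 2 else 0 with hb
  have hbsum : Summable b := ((summable_size_half K).mul_left _).add (hasSum_ite_eq 0 2).summable
  have hsz : ∀ β : 𝓞 K, size K (((m : 𝓞 K) * β : 𝓞 K) : K) = (m : ℝ) * size K (β : K) := by
    intro β
    push_cast
    simp only [size, mixedEmbedding.norm_eq_sup'_normAtPlace, mixedEmbedding.normAtPlace_apply,
      map_mul, place_natCast]
    exact (Finset.mul₀_sup' (Nat.cast_nonneg m) _ _ _).symm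
  have hle : ∀ s : ℝ, 1 < s → s ≤ 2 → ∀ β, |d s β - d 1 β| ≤ (s - 1) * b β := by
    intro s hs1 hs2 β
    have hall : |d s β - d 1 β| ≤ 2 * (s - 1) := by
      have h1 := abs_gs_int_var K hs1 (a + m * β)
      have h2 := abs_gs_int_var K hs1 ((m : 𝓞 K) * β)
      calc |d s β - d 1 β| = |(gs K s ((a + m * β : 𝓞 K) : K) - gs K 1 ((a + m * β : 𝓞 K) : K)) -
            (gs K s (((m : 𝓞 K) * β : 𝓞 K) : K) - gs K 1 (((m : 𝓞 K) * β : 𝓞 K) : K))| := by
            simp only [d]; ring_nf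
        _ ≤ _ := (abs_sub _ _).trans (by linarith)
    rcases eq_or_ne β 0 with rfl | hβ
    · refine hall.trans ?_
      rw [mul_comm 2, hb]
      refine mul_le_mul_of_nonneg_left ?_ (by linarith)
      simp only [if_true]
      exact le_add_of_nonneg_left (mul_nonneg (by positivity) (Real.rpow_nonneg (norm_nonneg _) _))
    simp only [hb, if_neg hβ, add_zero]
    rw [mul_assoc, ← Real.mul_rpow (Nat.cast_nonneg m) (size_nonneg K (β : K)), ← hsz]
    set x := (((m : 𝓞 K) * β : 𝓞 K) : K) with hx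
    rcases le_or_gt R (size K x) with hR' | hR'
    · have h3 := hvar s hs1 hs2 x ((le_max_left _ _).trans hR')
      simp only [d]
      rw [hx] at h3 ⊢
      push_cast at h3 ⊢
      rw [add_comm ((a : K))]
      refine h3.trans ?_
      rw [mul_comm C0, mul_assoc]
      exact mul_le_mul_of_nonneg_left (mul_le_mul_of_nonneg_right (le_max_left _ _)
        (Real.rpow_nonneg (norm_nonneg _) _)) (by linarith)
    · have hpos : 0 < size K x := by
        rw [hsz]
        exact mul_pos (Nat.cast_pos.mpr (Nat.pos_of_ne_zero hm)) (norm_pos_iff.mpr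
          ((map_ne_zero _).mpr (RingOfIntegers.coe_ne_zero_iff.mpr hβ)))
      have hRpos : 0 < R := lt_of_lt_of_le (by linarith) (le_max_left R0 R1)
      refine hall.trans ?_
      rw [mul_comm 2]
      refine mul_le_mul_of_nonneg_left ?_ (by linarith)
      calc (2 : ℝ) = 2 * R ^ (-p) * R ^ p := by
            rw [mul_assoc, ← Real.rpow_add hRpos, neg_add_cancel, Real.rpow_zero, mul_one]
        _ ≤ C * size K x ^ p := mul_le_mul (le_max_right _ _)
            (Real.rpow_le_rpow_of_nonpos hpos hR'.le (by rw [hp]; have := deg_pos K; linarith))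
            (Real.rpow_nonneg hRpos.le _) (le_max_of_le_left hC0)
  have hev : ∀ᶠ s in 𝓝[>] (1 : ℝ), Summable (d s) ∧ ∑' β, d s β = transErr K a m s ∧
      1 < s ∧ s ≤ 2 := by
    filter_upwards [hT, Ioo_mem_nhdsGT (show (1 : ℝ) < 2 by norm_num)] with s hs hs12
    have h := hCb s hs12.1 hs12.2.le hs.2.1
    have hfm : ∀ β : 𝓞 K, gs K s (((m : 𝓞 K) * β : 𝓞 K) : K) =
        ((m : ℝ) ^ deg K) ^ (-s) * gs K s (β : K) := fun β => by
      push_cast
      exact gs_natCast_mul K hm (by linarith [hs12.1]) _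
    simp only [d, hfm]
    refine ⟨h.1.sub (hs.2.1.mul_left _), ?_, hs12.1, hs12.2.le⟩
    rw [h.1.tsum_sub (hs.2.1.mul_left _), tsum_mul_left]
    rfl
  have h1 : Summable (d 1) := by
    obtain ⟨s, hs, -, hs1, hs2⟩ := hev.exists
    have h2 : Summable fun β => d s β - d 1 β :=
      Summable.of_norm_bounded (hbsum.mul_left (s - 1)) fun β => hle s hs1 hs2 β
    exact (hs.sub h2).congr fun β => sub_sub_cancel _ _
  refine ⟨((∑' β, d 1 β : ℝ) : ℂ), IsBigO.of_bound (∑' β, b β) ?_⟩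
  filter_upwards [hev] with s ⟨hs, hval, hs1, hs2⟩
  rw [← Complex.ofReal_sub, Complex.norm_real, Real.norm_eq_abs, Real.norm_eq_abs,
    abs_of_pos (by linarith : 0 < s - 1), ← hval, ← hs.tsum_sub h1, mul_comm, ← tsum_mul_left]
  rw [← Real.norm_eq_abs]
  exact tsum_of_norm_bounded (hbsum.mul_left (s - 1)).hasSum fun β => (Real.norm_eq_abs _).le.trans (hle s hs1 hs2 β)

end FLTAgent.WeightOne.ChebAux
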