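import Fermat.Agent.WeightOne.ChebAux.Lattice

/-!
# Twisted zeta functions of a totally complex field at `s = 1`

`nice_twistedZeta`: for a Dirichlet character `χ` modulo a prime `q` such that `χ ∘ N` is
nontrivial on the ideals prime to `q`, the series `∑ χ(N I) N(I)^(-s)` over the nonzero ideals
has a limit at `1⁺`, approached at linear speed. The series is split by ideal classes
(`nice_classL`) and residues, each piece being its polar part plus a nice function; the polar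
parts cancel by orthogonality.
-/

set_option autoImplicit false
set_option linter.unusedSectionVars false

noncomputable section

open NumberField NumberField.Units Filter
open FLTAgent.DS.Cheb
open FLTAgent.Density (normRpow)
open scoped nonZeroDivisors Topology

namespace FLTAgent.WeightOne.ChebAux

variable (K : Type*) [Field K] [NumberField K]

/-- Splitting a periodic sum along residues. -/
theorem tsum_periodic {m : ℕ} (hm : m ≠ 0) [Fintype (𝓞 K ⧸ Ideal.span {(m : 𝓞 K)})]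
    (g : 𝓞 K → ℂ) (hgle : ∀ α, ‖g α‖ ≤ 1)
    (hgper : ∀ (a : 𝓞 K ⧸ Ideal.span {(m : 𝓞 K)}) (β : 𝓞 K),
      g (Quotient.out a + m * β) = g (Quotient.out a)) :
    ∀ᶠ s : ℝ in 𝓝[>] 1, ∑' α : 𝓞 K, g α * (gs K s (α : K) : ℂ) =
      (∑ a : 𝓞 K ⧸ Ideal.span {(m : 𝓞 K)}, g (Quotient.out a)) *
          (((((m : ℝ) ^ deg K) ^ (-s) * latSum K s : ℝ)) : ℂ) +
        ∑ a : 𝓞 K ⧸ Ideal.span {(m : 𝓞 K)},
          g (Quotient.out a) * (transErr K (Quotient.out a) m s : ℂ) := by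
  classical
  set M := Ideal.span {(m : 𝓞 K)} with hM
  choose B hB using fun a : 𝓞 K ⧸ M => exists_translate_bound K (Quotient.out a) hm
  obtain ⟨T, hT⟩ := latSum_bound K
  filter_upwards [hT, Ioo_mem_nhdsGT (show (1 : ℝ) < 2 by norm_num)] with s hs hs12
  obtain ⟨-, hsO, -⟩ := hs
  obtain ⟨hs1, hs2⟩ := hs12
  set G : 𝓞 K → ℂ := fun α => g α * (gs K s (α : K) : ℂ) with hG
  let e : (𝓞 K ⧸ M) × 𝓞 K → 𝓞 K := fun p => Quotient.out p.1 + m * p.2
  have he : Function.Bijective e := by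
    constructor
    · rintro ⟨a, b⟩ ⟨a', b'⟩ h
      simp only [e] at h
      have h1 : a = a' := by
        have h' := congrArg (Ideal.Quotient.mk M) h
        rwa [map_add, map_add, Ideal.Quotient.mk_out, Ideal.Quotient.mk_out, map_mul, map_mul,
          show Ideal.Quotient.mk M (m : 𝓞 K) = 0 from
            Ideal.Quotient.eq_zero_iff_mem.mpr (Ideal.mem_span_singleton_self _),
          zero_mul, zero_mul, add_zero, add_zero] at h'
      subst h1
      rw [add_right_inj] at h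
      exact Prod.ext rfl (mul_left_cancel₀ (Nat.cast_ne_zero.mpr hm) h)
    · intro α
      have : α - Quotient.out (Ideal.Quotient.mk M α) ∈ M := by
        rw [← Ideal.Quotient.eq, Ideal.Quotient.mk_out]
      obtain ⟨b, hb⟩ := Ideal.mem_span_singleton.mp this
      exact ⟨(Ideal.Quotient.mk M α, b), by simp only [e]; rw [← hb]; ring⟩
  have hb : ∀ a : 𝓞 K ⧸ M, Summable (fun β => G (Quotient.out a + m * β)) ∧
      ∑' β, G (Quotient.out a + m * β) = g (Quotient.out a) *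
        ((transErr K (Quotient.out a) m s + ((m : ℝ) ^ deg K) ^ (-s) * latSum K s : ℝ) : ℂ) := by
    intro a
    have h := hB a s hs1 hs2.le hsO
    simp only [hG, hgper a]
    refine ⟨(Complex.summable_ofReal.mpr h.1).mul_left _, ?_⟩
    rw [tsum_mul_left, transErr, sub_add_cancel, Complex.ofReal_tsum]
  have hGs : Summable G := by
    refine Summable.of_norm_bounded hsO fun α => ?_
    rw [hG, norm_mul, Complex.norm_of_nonneg (gs_nonneg K s _)]
    exact mul_le_of_le_one_left (gs_nonneg K s _) (hgle α)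
  rw [← (Equiv.ofBijective e he).tsum_eq G]
  refine Eq.trans (Summable.tsum_prod' (f := fun p => G (e p))
    ((Equiv.ofBijective e he).summable_iff.mpr hGs) (fun a => (hb a).1)) ?_
  rw [tsum_fintype, Finset.sum_mul, ← Finset.sum_add_distrib]
  refine Finset.sum_congr ?_ fun a _ => ?_
  · ext; simp
  · exact (hb a).2.trans (by rw [Complex.ofReal_add]; ring)

/-- `(ρ ^ (s - 1) - 1) * latSum` is nice at `1`. -/
theorem nice_latSum_mul {ρ : ℝ} (hρ : 0 < ρ) :
    ∃ l : ℂ, Nice (fun s => (((ρ ^ (s - 1) - 1) * latSum K s : ℝ) : ℂ)) l := by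
  classical
  have := finite_quot_natCast K (two_ne_zero (α := ℕ))
  have := Fintype.ofFinite (𝓞 K ⧸ Ideal.span {((2 : ℕ) : 𝓞 K)})
  have hsplit := tsum_periodic K (two_ne_zero (α := ℕ)) (fun _ => (1 : ℂ))
    (fun _ => norm_one.le) (fun _ _ => rfl)
  choose lE hlE using fun a : 𝓞 K ⧸ Ideal.span {((2 : ℕ) : 𝓞 K)} =>
    nice_transErr K (Quotient.out a) (two_ne_zero (α := ℕ))
  set T := ((2 : ℕ) : ℝ) ^ deg K with hT
  have hT0 : 0 < T := pow_pos (by norm_num) _
  have hE : Nice (fun s => ((1 - T * T ^ (-s) : ℝ) : ℂ) * (latSum K s : ℂ)) (∑ a, lE a) := by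
    refine (nice_sum Finset.univ fun a _ => hlE a).congr ?_
    filter_upwards [hsplit] with s hs
    simp only [one_mul, Finset.sum_const, Finset.card_univ, nsmul_eq_mul, mul_one] at hs
    rw [← Nat.card_eq_fintype_card, card_quot_natCast, ← Complex.ofReal_tsum] at hs
    change ((latSum K s : ℝ) : ℂ) = _ at hs
    push_cast at hs ⊢
    rw [hT]
    push_cast
    linear_combination -hs
  have hl : -((Real.log T⁻¹ : ℝ) : ℂ) ≠ 0 := by
    rw [neg_ne_zero, Complex.ofReal_ne_zero, Real.log_inv, neg_ne_zero]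
    refine (Real.log_pos ?_).ne'
    exact one_lt_pow₀ (by norm_num) Module.finrank_pos.ne'
  have hden : Nice (fun s => -((((T⁻¹ ^ (s - 1) - 1) / (s - 1) : ℝ)) : ℂ))
      (-((Real.log T⁻¹ : ℝ) : ℂ)) := by
    simpa using (nice_slope (inv_pos.mpr hT0)).const_mul (-1)
  refine ⟨_, (((nice_slope hρ).mul (hden.inv hl)).mul hE).congr ?_⟩
  filter_upwards [hden.tendsto.eventually_ne hl, self_mem_nhdsWithin] with s hne hs1
  have hs : (s : ℝ) - 1 ≠ 0 := sub_ne_zero.mpr (ne_of_gt hs1)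
  have hid : T * T ^ (-s) = T⁻¹ ^ (s - 1) := by
    rw [Real.inv_rpow hT0.le, ← Real.rpow_neg hT0.le, neg_sub, sub_eq_add_neg,
      Real.rpow_add hT0, Real.rpow_one]
  rw [hid]
  rw [← Complex.ofReal_neg, Complex.ofReal_ne_zero] at hne
  simp only [← Complex.ofReal_neg, ← Complex.ofReal_inv, ← Complex.ofReal_mul]
  congr 1
  generalize T⁻¹ ^ (s - 1) = u at hne ⊢
  generalize ρ ^ (s - 1) = v
  generalize latSum K s = L
  generalize s - 1 = e at hne hs ⊢
  have hu : u - 1 ≠ 0 := fun h => hne (by rw [h, zero_div, neg_zero])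
  rw [show 1 - u = -(u - 1) by ring]
  generalize u - 1 = w at hu ⊢
  field_simp

variable [IsTotallyComplex K] {q : ℕ} [Fact q.Prime] (χ : DirichletCharacter ℂ q)

/-- The series of a class, up to its polar part. -/
theorem nice_classL (C : ClassGroup (𝓞 K)) (J : (Ideal (𝓞 K))⁰)
    (hJ : ClassGroup.mk0 J = C⁻¹) (hJq : (J : Ideal (𝓞 K)) ⊔ Ideal.span {(q : 𝓞 K)} = ⊤) :
    ∃ l : ℂ, Nice (fun s => (torsionOrder K : ℂ) * classL K χ s C -
      (chiN K χ J)⁻¹ * resSum K χ * ((((q : ℝ) ^ deg K)⁻¹ : ℝ) : ℂ) * (latSum K s : ℂ)) l := by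
  classical
  have hq : q.Prime := Fact.out
  set NJ := Ideal.absNorm (J : Ideal (𝓞 K)) with hNJ
  have hNJ0 : 0 < NJ := ideal_absNorm_pos K (nonZeroDivisors.ne_zero J.2)
  set m := q * NJ with hm
  have hm0 : m ≠ 0 := mul_ne_zero hq.ne_zero hNJ0.ne'
  have hmJ : (m : 𝓞 K) ∈ (J : Ideal (𝓞 K)) := by
    rw [hm, Nat.cast_mul]; exact Ideal.mul_mem_left _ _ (Ideal.absNorm_mem _)
  set M := Ideal.span {(m : 𝓞 K)} with hM
  have := finite_quot_natCast K hm0
  have := Fintype.ofFinite (𝓞 K ⧸ M)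
  set g : 𝓞 K → ℂ := fun α => if α ∈ (J : Ideal (𝓞 K)) then χ (normMod K q α) else 0 with hg
  have hgle : ∀ α, ‖g α‖ ≤ 1 := fun α => by
    simp only [hg]; split_ifs
    · exact DirichletCharacter.norm_le_one χ _
    · simp
  have hgper : ∀ (a : 𝓞 K ⧸ M) (β : 𝓞 K),
      g (Quotient.out a + m * β) = g (Quotient.out a) := by
    intro a β
    have h1 : (m : 𝓞 K) * β ∈ (J : Ideal (𝓞 K)) := Ideal.mul_mem_right _ _ hmJ
    simp only [hg, (J : Ideal (𝓞 K)).add_mem_iff_left h1]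
    split_ifs
    · refine congrArg χ (normMod_congr K ?_)
      rw [add_sub_cancel_left, Ideal.mem_span_singleton, hm, Nat.cast_mul, mul_assoc]
      exact dvd_mul_right _ _
    · rfl
  obtain ⟨c, hc, hcsum⟩ := sum_residues K χ hm0 (dvd_mul_right q NJ) hmJ hJq
  have hsplit := tsum_periodic K hm0 g hgle hgper
  choose lE hlE using fun a : 𝓞 K ⧸ M => nice_transErr K (Quotient.out a) hm0
  set ρ : ℝ := (NJ : ℝ) / (m : ℝ) ^ deg K with hρ
  have hρ0 : 0 < ρ := div_pos (by exact_mod_cast hNJ0)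
    (pow_pos (by exact_mod_cast Nat.pos_of_ne_zero hm0) _)
  obtain ⟨lP, hlP⟩ := nice_latSum_mul K hρ0
  have hNs : Nice (fun s => (((NJ : ℝ) ^ s : ℝ) : ℂ)) (((NJ : ℝ) ^ (1 : ℝ) : ℝ) : ℂ) :=
    nice_of_hasDerivAt ((hasStrictDerivAt_id (1 : ℝ)).hasDerivAt.const_rpow
      (show (0 : ℝ) < NJ by exact_mod_cast hNJ0))
  have hmain := ((hNs.mul (nice_sum Finset.univ fun a _ => (hlE a).const_mul (g (Quotient.out a)))).add
    (hlP.const_mul (resSum K χ * ((((q : ℝ) ^ deg K)⁻¹ : ℝ) : ℂ)))).const_mul (chiN K χ J)⁻¹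
  refine ⟨_, hmain.congr ?_⟩
  obtain ⟨T, hT⟩ := latSum_bound K
  filter_upwards [hsplit, hT, self_mem_nhdsWithin] with s htsum hs hs1
  have hs1' : (1 : ℝ) < s := hs1
  obtain ⟨hsI, -, -⟩ := hs
  have hsumF : Summable fun I : ClassFiber K C => chiN K χ I.1 * (normRpow K s I.1 : ℂ) := by
    refine Summable.of_norm_bounded (summable_classFiber K hsI C) fun I => ?_
    rw [norm_mul, Complex.norm_of_nonneg (Density.normRpow_nonneg K s _)]
    exact mul_le_of_le_one_left (Density.normRpow_nonneg K s _) (norm_chiN_le K χ _)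
  have hcJ : chiN K χ J ≠ 0 := by
    rw [chiN]
    exact (IsUnit.map χ (isUnit_iff_ne_zero.mpr (absNorm_ne_zero_mod K hJq))).ne_zero
  set G : 𝓞 K → ℂ := fun α => g α * (gs K s (α : K) : ℂ) with hG
  have hcls := hasSum_class K C J hJ
    (fun α => (chiN K χ J)⁻¹ * ((NJ : ℝ) ^ s : ℝ) *
      (χ (normMod K q α) * ((normR K (α : K) ^ (-s) : ℝ) : ℂ)))
    (fun I => chiN K χ I * (normRpow K s I : ℂ)) (fun α I _ hI => by
      have h1 : chiN K χ (Ideal.span {α}) = chiN K χ I * chiN K χ J := by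
        simp [hI, chiN, map_mul]
      have h2 : normR K (α : K) = (Ideal.absNorm I : ℝ) * NJ := by
        rw [← absNorm_span_cast, hI, map_mul, Nat.cast_mul]
      rw [← chiN_span, h1, h2, Density.normRpow_apply,
        Real.mul_rpow (Nat.cast_nonneg _) (Nat.cast_nonneg _), Real.rpow_neg (Nat.cast_nonneg NJ),
        Complex.ofReal_mul, Complex.ofReal_inv]
      have hN : (((NJ : ℝ) ^ s : ℝ) : ℂ) ≠ 0 := by
        exact_mod_cast (Real.rpow_pos_of_pos (by exact_mod_cast hNJ0) s).ne'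
      field_simp)
    hsumF
  have hfun : (fun α : {α : 𝓞 K // α ∈ (J : Ideal (𝓞 K)) ∧ α ≠ 0} =>
      (weight K (α.1 : K) : ℂ) * ((chiN K χ J)⁻¹ * ((NJ : ℝ) ^ s : ℝ) *
        (χ (normMod K q α.1) * ((normR K (α.1 : K) ^ (-s) : ℝ) : ℂ)))) =
      fun α => (chiN K χ J)⁻¹ * ((NJ : ℝ) ^ s : ℝ) * G α.1 := by
    funext α
    simp [hG, hg, gs, α.2.1]
    ring
  have hsupp : Function.support (fun α => (chiN K χ J)⁻¹ * ((NJ : ℝ) ^ s : ℝ) * G α) ⊆
      {α : 𝓞 K | α ∈ (J : Ideal (𝓞 K)) ∧ α ≠ 0} := by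
    intro α hα
    refine ⟨?_, fun h0 => hα ?_⟩
    · by_contra h
      exact hα (by simp [hG, hg, h])
    · simp [hG, h0, gs_zero K (by linarith : s ≠ 0)]
  rw [hfun] at hcls
  have hval := ((hasSum_subtype_iff_of_support_subset hsupp).mp hcls).tsum_eq
  rw [tsum_mul_left, htsum] at hval
  have hcoef : (NJ : ℝ) ^ s * ((c : ℝ) * ((m : ℝ) ^ deg K) ^ (-s)) =
      ((q : ℝ) ^ deg K)⁻¹ * ρ ^ (s - 1) := by
    have hM0 : (0 : ℝ) < (m : ℝ) ^ deg K := pow_pos (by exact_mod_cast Nat.pos_of_ne_zero hm0) _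
    have hN0 : (0 : ℝ) < NJ := by exact_mod_cast hNJ0
    have hq0 : (0 : ℝ) < (q : ℝ) ^ deg K := pow_pos (by exact_mod_cast hq.pos) _
    have hc' : (c : ℝ) = (m : ℝ) ^ deg K / ((q : ℝ) ^ deg K * NJ) := by
      have h' : (c : ℝ) * (q : ℝ) ^ deg K * NJ = (m : ℝ) ^ deg K := by
        rw [hNJ]; exact_mod_cast hc
      rw [eq_div_iff (mul_pos hq0 hN0).ne', ← h']
      ring
    rw [hc', hρ, Real.div_rpow hN0.le hM0.le, Real.rpow_sub_one hN0.ne',
      Real.rpow_sub_one hM0.ne', Real.rpow_neg hM0.le]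
    field_simp
  have hcsum' : ∑ a : 𝓞 K ⧸ M, g (Quotient.out a) = c * resSum K χ := hcsum
  rw [hcsum'] at hval
  rw [classL, ← hval]
  have hcc := congrArg (fun x : ℝ => (x : ℂ)) hcoef
  push_cast at hcc ⊢
  linear_combination -((chiN K χ J)⁻¹ * resSum K χ * (latSum K s : ℂ)) * hcc

/-- **The twisted zeta function at `1`.** -/
theorem nice_twistedZeta (P : (Ideal (𝓞 K))⁰)
    (hPq : (P : Ideal (𝓞 K)) ⊔ Ideal.span {(q : 𝓞 K)} = ⊤) (hP : chiN K χ P ≠ 1) :
    ∃ l : ℂ, Nice (fun s => ∑' I : {I : Ideal (𝓞 K) // I ≠ ⊥},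
      chiN K χ I.1 * (normRpow K s I.1 : ℂ)) l := by
  classical
  have hq : q.Prime := Fact.out
  choose J hJ hJq using exists_rep_prime_to K hq.ne_zero hq.ne_one
  choose l hl using fun C => nice_classL K χ C (J C) (hJ C) (hJq C)
  obtain ⟨T, hT⟩ := latSum_bound K
  refine ⟨_, ((nice_sum Finset.univ fun C _ => hl C).const_mul (torsionOrder K : ℂ)⁻¹).congr ?_⟩
  filter_upwards [hT] with s hs
  have hw : (torsionOrder K : ℂ) ≠ 0 := Nat.cast_ne_zero.mpr (Units.torsionOrder_ne_zero K)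
  have hsum : Summable fun I : {I : Ideal (𝓞 K) // I ≠ ⊥} =>
      chiN K χ I.1 * (normRpow K s I.1 : ℂ) := by
    refine Summable.of_norm_bounded hs.1 fun I => ?_
    rw [norm_mul, Complex.norm_of_nonneg (Density.normRpow_nonneg K s _)]
    exact mul_le_of_le_one_left (Density.normRpow_nonneg K s _) (norm_chiN_le K χ _)
  have hmain : ∑ C, (chiN K χ (J C))⁻¹ * resSum K χ * ((((q : ℝ) ^ deg K)⁻¹ : ℝ) : ℂ) *
      (latSum K s : ℂ) = 0 := by
    rw [← Finset.sum_mul, ← Finset.sum_mul, ← Finset.sum_mul]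
    by_cases hS : resSum K χ = 0
    · simp [hS]
    · rw [sum_class_chiN_eq_zero K χ hS J hJ hJq P hPq hP]; simp
  let e : (Σ C : ClassGroup (𝓞 K), ClassFiber K C) ≃ {I : Ideal (𝓞 K) // I ≠ ⊥} :=
    (Equiv.sigmaFiberEquiv (fun I : (Ideal (𝓞 K))⁰ => ClassGroup.mk0 I)).trans
      (Equiv.subtypeEquivRight fun I => mem_nonZeroDivisors_iff_ne_zero)
  have hsplit : ∑' I : {I : Ideal (𝓞 K) // I ≠ ⊥}, chiN K χ I.1 * (normRpow K s I.1 : ℂ) =
      ∑ C, classL K χ s C := by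
    rw [← e.tsum_eq]
    refine Eq.trans (Summable.tsum_sigma' (fun C => ?_) (e.summable_iff.mpr hsum)) ?_
    swap
    rw [tsum_fintype]
    · rfl
    · exact (e.summable_iff.mpr hsum).sigma_factor C
  rw [hsplit, Finset.sum_sub_distrib, hmain, sub_zero, ← Finset.mul_sum, ← mul_assoc,
    inv_mul_cancel₀ hw, one_mul]

end FLTAgent.WeightOne.ChebAux
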